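import Fermat.Agent.ShiftedPrimeOmega.Main

/-!
# The mean and the variance of `ω (p - 1)` over the primes

By the theorem of Bombieri and Vinogradov `ω (p - 1) - log log p` is bounded in the mean and
`O (√(log log p))` in the square mean, so that `∑_{p ≤ N} ω (p - 1) / p` is
`(log log N) ^ 2 / 2 + O (log log N)` and `∑_{p ≤ N} ω (p - 1) ^ 2 / p` is
`(log log N) ^ 3 / 3 + o ((log log N) ^ 3)`.
-/

set_option autoImplicit false

noncomputable section

namespace FA.OmegaPhi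

open Finset Filter
open FA.ErdosKac (primesUpTo mem_primesUpTo recipSum loglog tendsto_loglog)
open FA.ShiftedPrimeOmega (share goodPrimes shifted recipLogSum)
open scoped Topology

/-- `ω (p - 1)`. -/
def omegaPred (p : ℕ) : ℝ := ((p - 1).primeFactors.card : ℝ)

theorem omegaPred_nonneg (p : ℕ) : 0 ≤ omegaPred p := Nat.cast_nonneg _

theorem primesUpTo_mono {m n : ℕ} (h : m ≤ n) : primesUpTo m ⊆ primesUpTo n := fun _ hq =>
  mem_primesUpTo.2 ⟨(mem_primesUpTo.1 hq).1, (mem_primesUpTo.1 hq).2.trans h⟩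

/-- An eventual bound holds from `2` on with a larger constant. -/
theorem exists_bound_of_eventually {F G : ℕ → ℝ} {C : ℝ} (hG : ∀ m, 2 ≤ m → 0 < G m)
    (h : ∀ᶠ m in atTop, F m ≤ C * G m) : ∃ C', 0 ≤ C' ∧ ∀ m, 2 ≤ m → F m ≤ C' * G m := by
  obtain ⟨m₀, hm₀⟩ := eventually_atTop.1 h
  have h0 : 0 ≤ ∑ k ∈ range m₀, |F k| / |G k| :=
    sum_nonneg fun k _ => div_nonneg (abs_nonneg _) (abs_nonneg _)
  refine ⟨|C| + ∑ k ∈ range m₀, |F k| / |G k|, add_nonneg (abs_nonneg C) h0, fun m hm => ?_⟩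
  rcases le_or_gt m₀ m with hle | hlt
  · refine (hm₀ m hle).trans (mul_le_mul_of_nonneg_right ?_ (hG m hm).le)
    linarith [le_abs_self C]
  · have h1 : |F m| / |G m| ≤ ∑ k ∈ range m₀, |F k| / |G k| :=
      single_le_sum (f := fun k => |F k| / |G k|)
        (fun k _ => div_nonneg (abs_nonneg _) (abs_nonneg _)) (mem_range.2 hlt)
    rw [abs_of_pos (hG m hm), div_le_iff₀ (hG m hm)] at h1
    have h2 := mul_nonneg (abs_nonneg C) (hG m hm).le
    linarith [le_abs_self (F m)]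

theorem div_log_pos {m : ℕ} (hm : 2 ≤ m) : 0 < (m : ℝ) / Real.log m :=
  div_pos (Nat.cast_pos.2 (by omega)) (Real.log_pos (Nat.one_lt_cast.2 (by omega)))

theorem neg_one_le_loglog {m : ℕ} (hm : 2 ≤ m) : -1 ≤ loglog m := by
  have h2 : Real.log 2 ≤ Real.log m := Real.log_le_log two_pos (Nat.ofNat_le_cast.2 hm)
  rw [loglog, Real.le_log_iff_exp_le (by linarith [Real.log_two_gt_d9])]
  refine le_trans ?_ h2
  rw [Real.exp_neg]
  refine (inv_anti₀ (by norm_num) Real.exp_one_gt_d9.le).trans ?_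
  linarith [Real.log_two_gt_d9, (show (2.7182818283 : ℝ)⁻¹ ≤ 0.4 by norm_num)]

theorem loglog_mono {m n : ℕ} (hm : 2 ≤ m) (hmn : m ≤ n) : loglog m ≤ loglog n :=
  Real.log_le_log (Real.log_pos (Nat.one_lt_cast.2 (by omega)))
    (Real.log_le_log (Nat.cast_pos.2 (by omega)) (Nat.cast_le.2 hmn))

theorem abs_loglog_le {m n : ℕ} (hm : 2 ≤ m) (hmn : m ≤ n) (hn : 0 ≤ loglog n) :
    |loglog m| ≤ loglog n + 1 :=
  abs_le.2 ⟨by linarith [neg_one_le_loglog hm], by linarith [loglog_mono hm hmn]⟩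

theorem loglog_le_log (n : ℕ) (hn : 2 ≤ n) : loglog n ≤ Real.log n := by
  have hl : 0 < Real.log n := Real.log_pos (Nat.one_lt_cast.2 (by omega))
  exact Real.log_le_self hl.le

/-- `∑_{m < N} 1 / (m log m)` is at most `log log N + 2`. -/
theorem sum_inv_mul_log_le {N : ℕ} (hN : 2 ≤ N) :
    ∑ m ∈ Ico 2 N, ((m : ℝ) * Real.log m)⁻¹ ≤ loglog N + 2 := by
  have key : ∀ n : ℕ, 2 ≤ n → ∑ m ∈ Icc 3 n, ((m : ℝ) * Real.log m)⁻¹ ≤ loglog n - loglog 2 := by
    intro n hn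
    induction n, hn using Nat.le_induction with
    | base => simp
    | succ n hn ih =>
      rw [sum_Icc_succ_top (by omega)]
      have hn0 : (0 : ℝ) < n := Nat.cast_pos.2 (by omega)
      have hl : 0 < Real.log n := Real.log_pos (Nat.one_lt_cast.2 (by omega))
      have hl' : 0 < Real.log ((n + 1 : ℕ) : ℝ) := Real.log_pos (Nat.one_lt_cast.2 (by omega))
      have h1 := Real.log_le_sub_one_of_pos (div_pos hl hl')
      rw [Real.log_div hl.ne' hl'.ne'] at h1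
      have h2 := Real.log_le_sub_one_of_pos (div_pos hn0 (show (0 : ℝ) < (n + 1 : ℕ) by positivity))
      rw [Real.log_div hn0.ne' (by positivity)] at h2
      have h3 : (((n + 1 : ℕ) : ℝ))⁻¹ ≤ Real.log ((n + 1 : ℕ) : ℝ) - Real.log n := by
        have e : (n : ℝ) / ((n + 1 : ℕ) : ℝ) = 1 - (((n + 1 : ℕ) : ℝ))⁻¹ := by
          push_cast
          field_simp
          ring
        linarith
      have h4 : (((n + 1 : ℕ) : ℝ) * Real.log ((n + 1 : ℕ) : ℝ))⁻¹ ≤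
          1 - Real.log n / Real.log ((n + 1 : ℕ) : ℝ) := by
        rw [mul_inv, one_sub_div hl'.ne', ← div_eq_mul_inv]
        exact div_le_div_of_nonneg_right h3 hl'.le
      rw [loglog, loglog] at *
      linarith
  have hnn : ∀ m : ℕ, 0 ≤ ((m : ℝ) * Real.log m)⁻¹ := fun m =>
    inv_nonneg.2 (mul_nonneg (Nat.cast_nonneg m) (Real.log_natCast_nonneg m))
  refine (sum_le_sum_of_subset_of_nonneg (t := insert 2 (Icc 3 N)) (fun m hm => ?_)
    fun m _ _ => hnn m).trans ?_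
  · rw [mem_insert, mem_Icc]
    rw [mem_Ico] at hm
    omega
  · rw [sum_insert (by simp)]
    have h2 : (((2 : ℕ) : ℝ) * Real.log ((2 : ℕ) : ℝ))⁻¹ ≤ 1 := by
      refine inv_le_one_of_one_le₀ ?_
      norm_num
      linarith [Real.log_two_gt_d9]
    linarith [key N hN, neg_one_le_loglog (le_refl 2)]

/-- **From the sums over `p ≤ m` to the weights `1 / p`.** -/
theorem abs_sum_div_le {h : ℕ → ℝ} {M : ℝ} {N : ℕ} (hN : 2 ≤ N)
    (hh : ∀ m, 2 ≤ m → m ≤ N → |∑ p ∈ primesUpTo m, h p| ≤ M * ((m : ℝ) / Real.log m)) :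
    |∑ p ∈ primesUpTo N, h p / p| ≤ M * (loglog N + 4) := by
  have hM : 0 ≤ M := by
    by_contra hc
    linarith [(abs_nonneg _).trans (hh 2 le_rfl hN),
      mul_neg_of_neg_of_pos (not_le.1 hc) (div_log_pos (le_refl 2))]
  obtain ⟨S, hS⟩ : ∃ S : ℕ → ℝ, S = fun m => ∑ p ∈ primesUpTo m, h p := ⟨_, rfl⟩
  obtain ⟨T, hT⟩ : ∃ T : ℕ → ℝ, T = fun m => ∑ p ∈ primesUpTo m, h p / p := ⟨_, rfl⟩
  have hS' : ∀ m, 2 ≤ m → m ≤ N → |S m / m| ≤ M * (Real.log m)⁻¹ := fun m hm hmN => by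
    rw [abs_div, Nat.abs_cast, hS, div_le_iff₀ (Nat.cast_pos.2 (by omega))]
    refine (hh m hm hmN).trans (le_of_eq ?_)
    ring
  have key : ∀ n, 2 ≤ n → n ≤ N →
      |T n - S n / n| ≤ M * ∑ m ∈ Ico 2 n, ((m : ℝ) * Real.log m)⁻¹ := by
    intro n hn
    induction n, hn using Nat.le_induction with
    | base =>
      intro _
      rw [hT, hS]
      simp [show primesUpTo 2 = {2} by decide]
    | succ n hn ih =>
      intro hnN
      rw [sum_Ico_succ_top hn, mul_add]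
      have hn0 : (0 : ℝ) < n := Nat.cast_pos.2 (by omega)
      have e : T (n + 1) - S (n + 1) / ((n + 1 : ℕ) : ℝ) =
          (T n - S n / n) + S n / n * ((n + 1 : ℕ) : ℝ)⁻¹ := by
        simp only [hT, hS, primesUpTo]
        simp only [sum_filter]
        rw [sum_Icc_succ_top (by omega), sum_Icc_succ_top (by omega)]
        split_ifs <;> push_cast <;> field_simp <;> ring
      rw [e]
      refine (abs_add_le _ _).trans (add_le_add (ih (by omega)) ?_)
      rw [abs_mul, abs_inv, Nat.abs_cast, mul_inv, ← mul_assoc M, mul_right_comm M]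
      refine mul_le_mul (hS' n hn (by omega)) (inv_anti₀ hn0 (Nat.cast_le.2 (Nat.le_succ n)))
        (by positivity) (mul_nonneg hM (inv_nonneg.2 (Real.log_natCast_nonneg n)))
  have h1 := (key N hN le_rfl).trans (mul_le_mul_of_nonneg_left (sum_inv_mul_log_le hN) hM)
  have h2 : |S N / N| ≤ M * 2 := (hS' N hN le_rfl).trans (mul_le_mul_of_nonneg_left (by
    rw [inv_le_comm₀ (Real.log_pos (Nat.one_lt_cast.2 (by omega))) two_pos]
    have := Real.log_le_log two_pos (Nat.ofNat_le_cast.2 hN : (2 : ℝ) ≤ N)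
    linarith [Real.log_two_gt_d9]) hM)
  have h3 := abs_sub_abs_le_abs_sub (T N) (S N / N)
  rw [hT] at h1 h3
  simp only at h1 h3
  linarith

/-- `∑ R_p / p` and `∑ R_p ^ 2 / p` for `R_p = ∑_{q ≤ p} 1 / q`. -/
theorem recipSum_identities (N : ℕ) :
    2 * ∑ p ∈ primesUpTo N, recipSum p / p =
        recipSum N ^ 2 + ∑ p ∈ primesUpTo N, ((p : ℝ)⁻¹) ^ 2 ∧
      3 * ∑ p ∈ primesUpTo N, recipSum p ^ 2 / p = recipSum N ^ 3 +
        3 * ∑ p ∈ primesUpTo N, recipSum p * ((p : ℝ)⁻¹) ^ 2 -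
          ∑ p ∈ primesUpTo N, ((p : ℝ)⁻¹) ^ 3 := by
  induction N with
  | zero => simp [recipSum, primesUpTo]
  | succ n ih =>
    have e : ∀ F : ℕ → ℝ, ∑ p ∈ primesUpTo (n + 1), F p =
        (∑ p ∈ primesUpTo n, F p) + if (n + 1).Prime then F (n + 1) else 0 := fun F => by
      rw [primesUpTo, primesUpTo, sum_filter, sum_filter, sum_Icc_succ_top (by omega)]
    have eR : recipSum (n + 1) =
        recipSum n + if (n + 1).Prime then ((n + 1 : ℕ) : ℝ)⁻¹ else 0 := e _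
    simp only [e]
    obtain ⟨ih1, ih2⟩ := ih
    by_cases hp : (n + 1).Prime
    · simp only [if_pos hp] at eR ⊢
      refine ⟨?_, ?_⟩
      · linear_combination ih1 + (2 * ((n + 1 : ℕ) : ℝ)⁻¹ - recipSum (n + 1) -
          recipSum n - ((n + 1 : ℕ) : ℝ)⁻¹) * eR
      · linear_combination ih2 + (3 * ((n + 1 : ℕ) : ℝ)⁻¹ * (recipSum (n + 1) + recipSum n +
          ((n + 1 : ℕ) : ℝ)⁻¹) - 3 * ((n + 1 : ℕ) : ℝ)⁻¹ ^ 2 -
          (recipSum (n + 1) ^ 2 + recipSum (n + 1) * (recipSum n + ((n + 1 : ℕ) : ℝ)⁻¹) +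
            (recipSum n + ((n + 1 : ℕ) : ℝ)⁻¹) ^ 2)) * eR
    · simp only [if_neg hp, add_zero] at eR ⊢
      rw [eR]
      exact ⟨ih1, ih2⟩

theorem recipSum_mono {m n : ℕ} (h : m ≤ n) : recipSum m ≤ recipSum n :=
  sum_le_sum_of_subset_of_nonneg (primesUpTo_mono h) fun _ _ _ => by positivity

/-- The weights `log log p / p` and `(log log p) ^ 2 / p`. -/
theorem exists_loglog_sums : ∃ C : ℝ, 0 ≤ C ∧ ∀ N : ℕ, 2 ≤ N → 1 ≤ loglog N →
    |(∑ p ∈ primesUpTo N, loglog p / p) - loglog N ^ 2 / 2| ≤ C * loglog N ∧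
    |(∑ p ∈ primesUpTo N, loglog p ^ 2 / p) - loglog N ^ 3 / 3| ≤ C * loglog N ^ 2 := by
  obtain ⟨C, hC⟩ := FA.ErdosKac.exists_abs_recipSum_sub_le
  have hC0 : 0 ≤ C := (abs_nonneg _).trans (hC 2 le_rfl)
  refine ⟨20 * (C + 1) ^ 3, by positivity, fun N hN hx => ?_⟩
  obtain ⟨x, hxdef⟩ : ∃ x, x = loglog N := ⟨_, rfl⟩
  obtain ⟨R, hR⟩ : ∃ R, R = recipSum N := ⟨_, rfl⟩
  obtain ⟨hid1, hid2⟩ := recipSum_identities N
  rw [← hR] at hid1 hid2
  rw [← hxdef] at hx ⊢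
  have hRx : |R - x| ≤ C := hR ▸ hxdef ▸ hC N hN
  have hR0 : 0 ≤ R := hR ▸ FA.ErdosKac.recipSum_nonneg N
  have hRup : R ≤ (C + 1) * x := by
    have := le_mul_of_one_le_right hC0 hx
    linarith [(abs_le.1 hRx).2]
  have hmem : ∀ p ∈ primesUpTo N, 0 ≤ recipSum p ∧ recipSum p ≤ R ∧
      |loglog p - recipSum p| ≤ C ∧ 0 ≤ (p : ℝ)⁻¹ := fun p hp =>
    ⟨FA.ErdosKac.recipSum_nonneg p, hR ▸ recipSum_mono (mem_primesUpTo.1 hp).2,
      abs_sub_comm (loglog p) _ ▸ hC p (mem_primesUpTo.1 hp).1.two_le, by positivity⟩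
  have hsq : ∑ p ∈ primesUpTo N, ((p : ℝ)⁻¹) ^ 2 ≤ 1 :=
    FA.ErdosKac.sum_inv_sq_le _ fun p hp => (mem_primesUpTo.1 hp).1
  have hsq0 : 0 ≤ ∑ p ∈ primesUpTo N, ((p : ℝ)⁻¹) ^ 2 := sum_nonneg fun p _ => by positivity
  have hcu : ∑ p ∈ primesUpTo N, ((p : ℝ)⁻¹) ^ 3 ≤ 1 := (sum_le_sum fun p hp =>
    pow_le_pow_of_le_one (hmem p hp).2.2.2 (inv_le_one_of_one_le₀ (Nat.one_le_cast.2
      (mem_primesUpTo.1 hp).1.one_le)) (by norm_num : 2 ≤ 3)).trans hsq
  have hcu0 : 0 ≤ ∑ p ∈ primesUpTo N, ((p : ℝ)⁻¹) ^ 3 := sum_nonneg fun p _ => by positivity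
  have hRsq : ∑ p ∈ primesUpTo N, recipSum p * ((p : ℝ)⁻¹) ^ 2 ≤ R := by
    refine (sum_le_sum fun p hp => mul_le_mul_of_nonneg_right (hmem p hp).2.1
      (sq_nonneg _)).trans ?_
    rw [← mul_sum]
    exact mul_le_of_le_one_right hR0 hsq
  have hRsq0 : 0 ≤ ∑ p ∈ primesUpTo N, recipSum p * ((p : ℝ)⁻¹) ^ 2 :=
    sum_nonneg fun p hp => mul_nonneg (hmem p hp).1 (sq_nonneg _)
  have hd1 : |(∑ p ∈ primesUpTo N, loglog p / p) - ∑ p ∈ primesUpTo N, recipSum p / p| ≤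
      C * R := by
    rw [← sum_sub_distrib, hR, recipSum, mul_sum]
    refine (abs_sum_le_sum_abs _ _).trans (sum_le_sum fun p hp => ?_)
    rw [← sub_div, abs_div, Nat.abs_cast, div_eq_mul_inv]
    exact mul_le_mul_of_nonneg_right (hmem p hp).2.2.1 (hmem p hp).2.2.2
  have hd2 : |(∑ p ∈ primesUpTo N, loglog p ^ 2 / p) - ∑ p ∈ primesUpTo N, recipSum p ^ 2 / p| ≤
      C * (2 * R + C) * R := by
    rw [← sum_sub_distrib]
    refine (abs_sum_le_sum_abs _ _).trans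
      ((sum_le_sum (g := fun p : ℕ => C * (2 * R + C) * (p : ℝ)⁻¹) fun p hp => ?_).trans
        (le_of_eq (by rw [← mul_sum, hR, recipSum])))
    obtain ⟨h1, h2, h3, h4⟩ := hmem p hp
    rw [← sub_div, abs_div, Nat.abs_cast, div_eq_mul_inv,
      show loglog p ^ 2 - recipSum p ^ 2 =
        (loglog p - recipSum p) * (loglog p + recipSum p) by ring, abs_mul]
    refine mul_le_mul_of_nonneg_right (mul_le_mul h3 ?_ (abs_nonneg _) hC0) h4
    obtain ⟨a1, a2⟩ := abs_le.1 h3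
    exact abs_le.2 ⟨by linarith, by linarith⟩
  obtain ⟨b1, b2⟩ := abs_le.1 hd1
  obtain ⟨c1, c2⟩ := abs_le.1 hd2
  have hRx2 : |R ^ 2 - x ^ 2| ≤ C * ((C + 2) * x) := by
    rw [show R ^ 2 - x ^ 2 = (R - x) * (R + x) by ring, abs_mul]
    refine mul_le_mul hRx ?_ (abs_nonneg _) hC0
    rw [abs_of_nonneg (by linarith)]
    linarith
  have hRx3 : |R ^ 3 - x ^ 3| ≤ C * (3 * (C + 1) ^ 2 * x ^ 2) := by
    rw [show R ^ 3 - x ^ 3 = (R - x) * (R ^ 2 + R * x + x ^ 2) by ring, abs_mul]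
    refine mul_le_mul hRx ?_ (abs_nonneg _) hC0
    rw [abs_of_nonneg (by positivity)]
    have e1 := pow_le_pow_left₀ hR0 hRup 2
    have e2 := mul_le_mul_of_nonneg_right hRup (show 0 ≤ x by linarith)
    have e3 : (C + 1) * x ^ 2 ≤ (C + 1) ^ 2 * x ^ 2 :=
      mul_le_mul_of_nonneg_right (le_self_pow₀ (by linarith) two_ne_zero) (sq_nonneg x)
    have e4 : x ^ 2 ≤ (C + 1) ^ 2 * x ^ 2 :=
      le_mul_of_one_le_left (sq_nonneg x) (one_le_pow₀ (by linarith))
    rw [mul_pow] at e1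
    nlinarith
  obtain ⟨r1, r2⟩ := abs_le.1 hRx2
  obtain ⟨s1, s2⟩ := abs_le.1 hRx3
  have hx2 : x ≤ x ^ 2 := le_self_pow₀ hx two_ne_zero
  have hCR : C * R ≤ C * ((C + 1) * x) := mul_le_mul_of_nonneg_left hRup hC0
  have hCR2 : C * (2 * R + C) * R ≤ C * (3 * (C + 1) * x) * ((C + 1) * x) := by
    refine mul_le_mul (mul_le_mul_of_nonneg_left ?_ hC0) hRup hR0 (by positivity)
    have := le_mul_of_one_le_right hC0 hx
    linarith
  have hc3 : (1 : ℝ) ≤ (C + 1) ^ 3 := one_le_pow₀ (by linarith)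
  have hc2 : (C + 1) ^ 2 ≤ (C + 1) ^ 3 := pow_le_pow_right₀ (by linarith) (by norm_num)
  have hc1 : C + 1 ≤ (C + 1) ^ 2 := le_self_pow₀ (by linarith) two_ne_zero
  refine ⟨abs_le.2 ⟨?_, ?_⟩, abs_le.2 ⟨?_, ?_⟩⟩ <;> nlinarith

theorem goodPrimes_neg_one (w : ℕ) : goodPrimes (-1) w = primesUpTo w := by
  refine filter_true_of_mem fun q hq h => ?_
  have h1 : q ∣ 1 := by simpa using Int.natCast_dvd.1 h
  exact (mem_primesUpTo.1 hq).1.one_lt.ne' (Nat.dvd_one.1 h1)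

theorem shifted_neg_one {p : ℕ} (hp : 1 ≤ p) : shifted (-1) p = p - 1 := by
  rw [shifted]
  omega

/-- The level of distribution for the divisors of `p - 1`. -/
theorem exists_level_pred : ∃ C : ℝ, 0 < C ∧ ∀ᶠ m : ℕ in atTop,
    (∀ w k : ℕ, w ^ k ≤ Nat.sqrt (Nat.sqrt m) → ∑ T ∈ (primesUpTo w).powersetCard k,
      |(((primesUpTo m).filter fun p => ∀ q ∈ T, q ∣ p - 1).card : ℝ) -
        (∏ q ∈ T, share q) * recipLogSum m| ≤ C * ((m : ℝ) / Real.log m ^ 6)) ∧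
    |((primesUpTo m).card : ℝ) - recipLogSum m| ≤ C * ((m : ℝ) / Real.log m ^ 6) ∧
    (m : ℝ) / (4 * Real.log m) ≤ (primesUpTo m).card := by
  obtain ⟨C, hC, h⟩ := ShiftedPrimeOmega.exists_level (a := -1)
  refine ⟨C, hC, h.mono fun m hm => ⟨fun w k hk => ?_, hm.2⟩⟩
  refine le_of_eq_of_le (sum_congr (by rw [goodPrimes_neg_one]) fun T _ => ?_) (hm.1 w k hk)
  congr 4
  exact filter_congr fun p hp => by rw [shifted_neg_one (mem_primesUpTo.1 hp).1.one_le]

/-- `π m ≪ m / log m`. -/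
theorem exists_card_le : ∃ C : ℝ, 0 ≤ C ∧ ∀ m : ℕ, 2 ≤ m →
    ((primesUpTo m).card : ℝ) ≤ C * ((m : ℝ) / Real.log m) := by
  obtain ⟨C, hC, h⟩ := exists_level_pred
  refine exists_bound_of_eventually (C := C + 4) (fun m hm => div_log_pos hm) ?_
  filter_upwards [h, eventually_ge_atTop 16,
    BombieriVinogradov.eventually_log_pow_le 1 (show (0 : ℝ) < 1 / 2 by norm_num),
    BombieriVinogradov.eventually_log_ge 1] with m ⟨_, h0, _⟩ hm hsq hl
  obtain ⟨L, hL⟩ : ∃ L, L = Real.log m := ⟨_, rfl⟩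
  rw [← hL] at h0 hsq hl ⊢
  rw [pow_one, ← Real.sqrt_eq_rpow] at hsq
  have hm0 : (0 : ℝ) < m := Nat.cast_pos.2 (by omega)
  have hX : recipLogSum m ≤ 4 * ((m : ℝ) / L) := by
    rw [recipLogSum, ← sum_filter_add_sum_filter_not _ (fun n => n ≤ Nat.sqrt m)]
    have hA : ∑ n ∈ (Icc 2 m).filter (fun n => n ≤ Nat.sqrt m), (Real.log n)⁻¹ ≤
        2 * Real.sqrt m := by
      refine (sum_le_card_nsmul _ _ 2 fun n hn => ?_).trans ?_
      · rw [mem_filter, mem_Icc] at hn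
        rw [inv_le_comm₀ (Real.log_pos (Nat.one_lt_cast.2 (by omega))) two_pos]
        have := Real.log_le_log two_pos (Nat.ofNat_le_cast.2 hn.1.1 : (2 : ℝ) ≤ n)
        linarith [Real.log_two_gt_d9]
      · rw [nsmul_eq_mul, mul_comm]
        refine mul_le_mul_of_nonneg_left (le_trans ?_ Real.nat_sqrt_le_real_sqrt) zero_le_two
        refine Nat.cast_le.2 ((card_le_card (t := Icc 1 (Nat.sqrt m)) fun n hn => ?_).trans
          (by simp))
        rw [mem_filter, mem_Icc] at hn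
        exact mem_Icc.2 ⟨by omega, hn.2⟩
    have hB : ∑ n ∈ (Icc 2 m).filter (fun n => ¬ n ≤ Nat.sqrt m), (Real.log n)⁻¹ ≤
        (m : ℝ) * (2 / L) := by
      refine (sum_le_card_nsmul _ _ (2 / L) fun n hn => ?_).trans ?_
      · rw [mem_filter, mem_Icc, not_le] at hn
        have hn0 : (0 : ℝ) < n := Nat.cast_pos.2 (by omega)
        have h1 : L ≤ 2 * Real.log n := by
          rw [hL, two_mul, ← Real.log_mul hn0.ne' hn0.ne']
          refine Real.log_le_log hm0 ?_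
          exact_mod_cast (Nat.sqrt_lt.1 hn.2).le
        rw [inv_eq_one_div, div_le_div_iff₀ (by linarith) (by linarith)]
        linarith
      · rw [nsmul_eq_mul]
        refine mul_le_mul_of_nonneg_right (Nat.cast_le.2 ?_) (by positivity)
        refine (card_filter_le _ _).trans ?_
        rw [Nat.card_Icc]
        omega
    have h1 : Real.sqrt m ≤ (m : ℝ) / L := by
      rw [le_div_iff₀ (by linarith)]
      refine (mul_le_mul_of_nonneg_left hsq (Real.sqrt_nonneg _)).trans ?_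
      rw [Real.mul_self_sqrt hm0.le]
    have h2 : (m : ℝ) * (2 / L) = 2 * ((m : ℝ) / L) := by ring
    linarith
  have h6 : (m : ℝ) / L ^ 6 ≤ m / L :=
    div_le_div_of_nonneg_left hm0.le (by linarith) (le_self_pow₀ hl (by norm_num))
  have h7 := mul_le_mul_of_nonneg_left h6 hC.le
  linarith [(abs_le.1 h0).2]

/-- **The first two moments of `ω (p - 1) - log log m` over `p ≤ m`.** -/
theorem exists_moments : ∃ C : ℝ, 0 ≤ C ∧ ∀ᶠ m : ℕ in atTop,
    |∑ p ∈ primesUpTo m, (omegaPred p - loglog m)| ≤ C * (primesUpTo m).card ∧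
    ∑ p ∈ primesUpTo m, (omegaPred p - loglog m) ^ 2 ≤
      C * (loglog m * (primesUpTo m).card) := by
  obtain ⟨C, hC, hlev⟩ := exists_level_pred
  obtain ⟨C₁, hC₁⟩ := FA.ErdosKac.exists_abs_recipSum_sub_le
  have hC₁0 : 0 ≤ C₁ := (abs_nonneg _).trans (hC₁ 2 le_rfl)
  obtain ⟨R, hRdef⟩ : ∃ R, R = 8 + (C₁ + 10) := ⟨_, rfl⟩
  refine ⟨2 * (R + 2) ^ 2, by positivity, ?_⟩
  filter_upwards [hlev, eventually_ge_atTop (2 ^ 64), tendsto_loglog.eventually_ge_atTop 1,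
    BombieriVinogradov.eventually_log_ge (max 1 (12 * C * (R + 2) ^ 2))]
    with m ⟨hlev, h0, hcard⟩ hm hx hlog
  obtain ⟨L, hL⟩ : ∃ L, L = Real.log m := ⟨_, rfl⟩
  obtain ⟨x, hxdef⟩ : ∃ x, x = loglog m := ⟨_, rfl⟩
  rw [← hL] at hlev h0 hcard hlog
  rw [← hxdef] at hx ⊢
  have hL1 : 1 ≤ L := le_of_max_le_left hlog
  have hxL : x ≤ L := hxdef ▸ hL ▸ loglog_le_log m (le_trans (by norm_num) hm)
  have hm0 : (0 : ℝ) < m := Nat.cast_pos.2 (lt_of_lt_of_le (by norm_num) hm)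
  obtain ⟨z, hz⟩ : ∃ z, z = Nat.sqrt (Nat.sqrt m) := ⟨_, rfl⟩
  obtain ⟨w, hw⟩ : ∃ w, w = Nat.sqrt z := ⟨_, rfl⟩
  rw [← hz] at hlev
  have hw2z : w ^ 2 ≤ z := hw ▸ Nat.sqrt_le' z
  have hmw : m < (w + 1) ^ 8 := by
    calc m < (z + 1) ^ 4 := hz ▸ ShiftedPrimeOmega.lt_sqrt_sqrt_succ_pow_four m
      _ ≤ ((w + 1) ^ 2) ^ 4 := Nat.pow_le_pow_left (hw ▸ Nat.lt_succ_sqrt' z) 4
      _ = (w + 1) ^ 8 := by ring
  have hw256 : 256 ≤ w := by
    by_contra hc
    have h8 : (w + 1) ^ 8 ≤ 256 ^ 8 := Nat.pow_le_pow_left (by omega) 8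
    have : (256 : ℕ) ^ 8 = 2 ^ 64 := by norm_num
    omega
  have hwz : w ≤ z := (Nat.le_self_pow two_ne_zero w).trans hw2z
  have hwm : w ≤ m := hwz.trans (hz ▸ (Nat.sqrt_le_self _).trans (Nat.sqrt_le_self _))
  obtain ⟨σ, hσ⟩ : ∃ σ, σ = ∑ q ∈ primesUpTo w, share q := ⟨_, rfl⟩
  have hsh : ∀ q ∈ primesUpTo w, 0 ≤ share q := fun q hq =>
    (ShiftedPrimeOmega.share_bounds (mem_primesUpTo.1 hq).1.two_le).1
  have hσ0 : 0 ≤ σ := hσ ▸ sum_nonneg hsh
  have hσx : |σ - x| ≤ C₁ + 10 := by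
    have h1 := ShiftedPrimeOmega.abs_shareSum_sub_recipSum_le (a := -1) (by norm_num) w
    rw [goodPrimes_neg_one, ← hσ] at h1
    simp only [Int.natAbs_neg, Int.natAbs_one, Nat.primeFactors_one, card_empty, Nat.cast_zero,
      add_zero] at h1
    have h2 := hC₁ w (by omega)
    have h3 : x ≤ loglog w + 6 := by
      have hw0 : (0 : ℝ) < w := Nat.cast_pos.2 (by omega)
      have hlw : 0 < Real.log w := Real.log_pos (Nat.one_lt_cast.2 (by omega))
      have h4 : L ≤ 16 * Real.log w := by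
        rw [hL, ← Nat.cast_ofNat (n := 16), ← Real.log_pow]
        refine Real.log_le_log hm0 ?_
        exact_mod_cast hmw.le.trans (le_of_le_of_eq (Nat.pow_le_pow_left
          (show w + 1 ≤ w ^ 2 by rw [sq]; nlinarith) 8) (by ring))
      have h5 : x ≤ Real.log 16 + loglog w := by
        rw [hxdef, loglog, loglog, ← hL, ← Real.log_mul (by norm_num) hlw.ne']
        exact Real.log_le_log (by linarith) h4
      have h6 : Real.log 16 ≤ 6 := by
        rw [show (16 : ℝ) = 2 ^ 4 by norm_num, Real.log_pow]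
        push_cast
        linarith [Real.log_two_lt_d9]
      linarith
    have h7 : loglog w ≤ x := hxdef ▸ loglog_mono (by omega) hwm
    obtain ⟨a1, a2⟩ := abs_le.1 h1
    obtain ⟨b1, b2⟩ := abs_le.1 h2
    simp only [loglog] at h3 h7
    exact abs_le.2 ⟨by linarith, by linarith⟩
  obtain ⟨g, hg⟩ : ∃ g : ℕ → ℕ, g = fun p => ((primesUpTo w).filter (· ∣ p - 1)).card := ⟨_, rfl⟩
  have hrest : ∀ p ∈ primesUpTo m, |omegaPred p - g p| ≤ 8 := by
    intro p hp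
    obtain ⟨hpp, hpm⟩ := mem_primesUpTo.1 hp
    have hp1 : 0 < p - 1 := by have := hpp.two_le; omega
    have hbig : ((p - 1).primeFactors.filter fun q => w < q).card ≤ 8 := by
      have h1 : (w + 1) ^ ((p - 1).primeFactors.filter fun q => w < q).card ≤ p - 1 :=
        (pow_card_le_prod _ _ _ fun q hq => (mem_filter.1 hq).2).trans
          (Nat.le_of_dvd hp1 ((prod_dvd_prod_of_subset _ _ id (filter_subset _ _)).trans
            (Nat.prod_primeFactors_dvd _)))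
      exact ((Nat.pow_lt_pow_iff_right (by omega)).1 ((h1.trans (by omega)).trans_lt hmw)).le
    have e : ((p - 1).primeFactors.filter fun q => ¬ w < q) =
        (primesUpTo w).filter (· ∣ p - 1) := by
      ext q
      simp only [mem_filter, Nat.mem_primeFactors, mem_primesUpTo, not_lt]
      exact ⟨fun h => ⟨⟨h.1.1, h.2⟩, h.1.2.1⟩, fun h => ⟨⟨h.1.1, h.2, hp1.ne'⟩, h.1.2⟩⟩
    rw [omegaPred, hg, ← card_filter_add_card_filter_not (fun q => w < q), e, Nat.cast_add,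
      add_sub_cancel_right, Nat.abs_cast]
    exact_mod_cast hbig
  obtain ⟨Q, hQ⟩ : ∃ Q : ℝ, Q = (primesUpTo m).card := ⟨_, rfl⟩
  rw [← hQ] at h0 hcard ⊢
  have hQ0 : 0 < Q := lt_of_lt_of_le (by positivity) hcard
  obtain ⟨E, hE⟩ : ∃ E, E = C * ((m : ℝ) / L ^ 6) := ⟨_, rfl⟩
  rw [← hE] at h0 hlev
  have hE0 : 0 ≤ E := (abs_nonneg _).trans h0
  have hmom : ∀ k, w ^ k ≤ z → |(∑ p ∈ primesUpTo m, ((g p).choose k : ℝ)) -
      PointEK.esymm share (primesUpTo w) k * Q| ≤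
        E * (1 + PointEK.esymm share (primesUpTo w) k) := by
    intro k hk
    rw [hg]
    simp only [ShiftedPrimeOmega.sum_choose_eq (f := fun p => p - 1)]
    have h1 := hlev w k hk
    refine (abs_sub_le _ (PointEK.esymm share (primesUpTo w) k * recipLogSum m) _).trans ?_
    rw [mul_add, mul_one]
    refine add_le_add ?_ ?_
    · rw [PointEK.esymm, sum_mul, ← sum_sub_distrib]
      exact (abs_sum_le_sum_abs _ _).trans h1
    · rw [← mul_sub, abs_mul, abs_of_nonneg (PointEK.esymm_nonneg hsh k), abs_sub_comm, mul_comm E]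
      exact mul_le_mul_of_nonneg_left h0 (PointEK.esymm_nonneg hsh k)
  have he1 : PointEK.esymm share (primesUpTo w) 1 = σ := by
    rw [PointEK.esymm, powersetCard_one, sum_map, hσ]
    simp
  have he2 : PointEK.esymm share (primesUpTo w) 2 ≤ σ ^ 2 / 2 := by
    refine (PointEK.esymm_le hsh 2).trans (le_of_eq ?_)
    rw [← hσ]
    norm_num
  have hm1 := hmom 1 (by rw [pow_one]; exact hwz)
  have hm2 := hmom 2 hw2z
  rw [he1] at hm1
  simp only [Nat.choose_one_right] at hm1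
  obtain ⟨u1, u2⟩ := abs_le.1 hm1
  obtain ⟨-, v2⟩ := abs_le.1 hm2
  have hsq2 : ∑ p ∈ primesUpTo m, ((g p : ℝ) - σ) ^ 2 =
      2 * (∑ p ∈ primesUpTo m, ((g p).choose 2 : ℝ)) +
        (1 - 2 * σ) * (∑ p ∈ primesUpTo m, (g p : ℝ)) + σ ^ 2 * Q := by
    rw [mul_sum, mul_sum, hQ, mul_comm (σ ^ 2), ← nsmul_eq_mul, ← sum_const, ← sum_add_distrib,
      ← sum_add_distrib]
    refine sum_congr rfl fun p _ => ?_
    rw [Nat.cast_choose_two]
    ring
  have hσR : σ + 1 ≤ (R + 2) * L := by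
    have h1 := (abs_le.1 hσx).2
    have h2 : (R + 1) * 1 ≤ (R + 1) * L := mul_le_mul_of_nonneg_left hL1 (by linarith)
    linarith
  have herr : 3 * E * (σ + 1) ^ 2 ≤ Q := by
    refine le_trans ?_ hcard
    refine (mul_le_mul_of_nonneg_left (pow_le_pow_left₀ (by linarith) hσR 2)
      (by linarith)).trans ?_
    rw [hE, show 3 * (C * ((m : ℝ) / L ^ 6)) * ((R + 2) * L) ^ 2 =
      3 * C * (R + 2) ^ 2 * m / L ^ 4 by field_simp,
      div_le_div_iff₀ (by positivity) (by positivity)]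
    have h1 : 12 * C * (R + 2) ^ 2 ≤ L ^ 3 :=
      (le_of_max_le_right hlog).trans (le_self_pow₀ hL1 (by norm_num))
    have h2 := mul_le_mul_of_nonneg_left h1 (show 0 ≤ (m : ℝ) * L by positivity)
    linarith
  refine ⟨?_, ?_⟩
  · rw [show ∑ p ∈ primesUpTo m, (omegaPred p - x) = ∑ p ∈ primesUpTo m, (omegaPred p - g p) +
      ((∑ p ∈ primesUpTo m, (g p : ℝ)) - σ * Q) + (σ - x) * Q by
      rw [sum_sub_distrib, sum_sub_distrib, sum_const, nsmul_eq_mul, hQ]; ring]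
    refine (abs_add_le _ _).trans ((add_le_add ((abs_add_le _ _).trans (add_le_add
      ((abs_sum_le_sum_abs _ _).trans (sum_le_card_nsmul _ _ _ hrest)) hm1)) le_rfl).trans ?_)
    rw [nsmul_eq_mul, ← hQ, abs_mul, abs_of_pos hQ0]
    have h1 := mul_le_mul_of_nonneg_right hσx hQ0.le
    have h2 : E * (1 + σ) ≤ Q := by
      refine le_trans ?_ herr
      have := mul_le_mul_of_nonneg_left (le_self_pow₀ (show 1 ≤ σ + 1 by linarith) two_ne_zero)
        hE0
      nlinarith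
    have h3 : (R + 1) * Q ≤ 2 * (R + 2) ^ 2 * Q :=
      mul_le_mul_of_nonneg_right (by nlinarith) hQ0.le
    rw [hRdef] at h3 ⊢
    linarith
  · refine (sum_le_sum (g := fun p => 2 * ((g p : ℝ) - σ) ^ 2 + 2 * R ^ 2) fun p hp => ?_).trans ?_
    · have h1 := abs_le.1 (hrest p hp)
      have h2 := abs_le.1 hσx
      have h3 : (omegaPred p - g p + (σ - x)) ^ 2 ≤ R ^ 2 :=
        sq_le_sq' (by linarith) (by linarith)
      nlinarith [sq_nonneg ((g p : ℝ) - σ - (omegaPred p - g p + (σ - x)))]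
    rw [sum_add_distrib, sum_const, nsmul_eq_mul, ← hQ, ← mul_sum, hsq2]
    have h1 : ((∑ p ∈ primesUpTo m, ((g p).choose 2 : ℝ))) ≤
        σ ^ 2 / 2 * Q + E * (1 + σ ^ 2 / 2) := by
      have := mul_le_mul_of_nonneg_right he2 hQ0.le
      have := mul_le_mul_of_nonneg_left he2 hE0
      linarith
    have h2 : (1 - 2 * σ) * (∑ p ∈ primesUpTo m, (g p : ℝ)) ≤
        (1 - 2 * σ) * (σ * Q) + (1 + 2 * σ) * (E * (1 + σ)) := by
      obtain ⟨G, hG⟩ : ∃ G, G = ∑ p ∈ primesUpTo m, (g p : ℝ) := ⟨_, rfl⟩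
      rw [← hG] at u1 u2 ⊢
      rcases le_or_gt 0 (1 - 2 * σ) with hc | hc
      · have := mul_le_mul_of_nonneg_left u2 hc
        have := mul_nonneg (mul_nonneg hσ0 zero_le_four) (mul_nonneg hE0 (by linarith : 0 ≤ 1 + σ))
        linarith
      · have := mul_le_mul_of_nonpos_left u1 hc.le
        have := mul_nonneg hE0 (by linarith : 0 ≤ 1 + σ)
        linarith
    have h3 : σ * Q ≤ (R + 1) * x * Q := by
      refine mul_le_mul_of_nonneg_right ?_ hQ0.le
      have := mul_le_mul_of_nonneg_left hx (show 0 ≤ R by linarith)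
      linarith [(abs_le.1 hσx).2]
    have h4 : E * (2 + σ ^ 2) + (1 + 2 * σ) * (E * (1 + σ)) ≤ Q := le_trans (by
      nlinarith [mul_nonneg hE0 hσ0]) herr
    have h5 : Q ≤ x * Q := le_mul_of_one_le_left hQ0.le hx
    have h6 := mul_le_mul_of_nonneg_left h5 (sq_nonneg R)
    have h7 : 0 ≤ x * Q := mul_nonneg (by linarith) hQ0.le
    nlinarith

/-- `log log p` against `log log m` over `p ≤ m`. -/
theorem eventually_sum_loglog_sub :
    ∀ᶠ m : ℕ in atTop, ∑ p ∈ primesUpTo m, (loglog m - loglog p) ^ 2 ≤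
        (primesUpTo m).card + (m : ℝ) / Real.log m := by
  filter_upwards [eventually_ge_atTop 16,
    BombieriVinogradov.eventually_log_pow_le 4 (show (0 : ℝ) < 1 / 2 by norm_num),
    BombieriVinogradov.eventually_log_ge 4] with m hm hlog hL4
  obtain ⟨L, hL⟩ : ∃ L, L = Real.log m := ⟨_, rfl⟩
  rw [← hL] at hlog hL4 ⊢
  rw [← Real.sqrt_eq_rpow] at hlog
  have hm0 : (0 : ℝ) < m := Nat.cast_pos.2 (by omega)
  have hxL : loglog m ≤ L := hL ▸ loglog_le_log m (by omega)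
  refine (sum_le_sum (g := fun p => 1 + if p ≤ Nat.sqrt m then (2 * L) ^ 2 else 0)
    fun p hp => ?_).trans ?_
  · obtain ⟨hpp, hpm⟩ := mem_primesUpTo.1 hp
    have h1 := loglog_mono hpp.two_le hpm
    split_ifs with hs
    · have h2 := neg_one_le_loglog hpp.two_le
      have h3 : (loglog m - loglog p) ^ 2 ≤ (2 * L) ^ 2 :=
        pow_le_pow_left₀ (by linarith) (by linarith) 2
      linarith
    · have h2 := (ShiftedPrimeOmega.abs_loglog_sub_le hpm (not_le.1 hs) hpp.two_le).1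
      rw [add_zero]
      exact pow_le_one₀ (by linarith) (by linarith)
  · rw [sum_add_distrib, sum_const, nsmul_one, ← sum_filter, sum_const, nsmul_eq_mul]
    refine add_le_add le_rfl ?_
    have hc : ((((primesUpTo m).filter fun p => p ≤ Nat.sqrt m).card : ℕ) : ℝ) ≤ Real.sqrt m := by
      refine le_trans (Nat.cast_le.2 ((card_le_card (t := Icc 1 (Nat.sqrt m)) fun p hp => ?_).trans
        (by simp))) Real.nat_sqrt_le_real_sqrt
      rw [mem_filter, mem_primesUpTo] at hp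
      exact mem_Icc.2 ⟨hp.1.1.one_le, hp.2⟩
    refine (mul_le_mul_of_nonneg_right hc (sq_nonneg _)).trans ?_
    rw [le_div_iff₀ (by linarith)]
    refine le_trans ?_ (le_of_eq (Real.mul_self_sqrt hm0.le))
    rw [mul_assoc]
    refine mul_le_mul_of_nonneg_left (le_trans ?_ hlog) (Real.sqrt_nonneg _)
    have := mul_le_mul_of_nonneg_left hL4 (pow_nonneg (show 0 ≤ L by linarith) 3)
    linarith

/-- The deviation `ω (p - 1) - log log p` over `p ≤ m`. -/
theorem exists_sum_dev : ∃ C : ℝ, 0 ≤ C ∧ ∀ m : ℕ, 2 ≤ m →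
    |∑ p ∈ primesUpTo m, (omegaPred p - loglog p)| ≤ C * ((m : ℝ) / Real.log m) ∧
    ∑ p ∈ primesUpTo m, (omegaPred p - loglog p) ^ 2 ≤
      C * ((|loglog m| + 1) * ((m : ℝ) / Real.log m)) ∧
    ∑ p ∈ primesUpTo m, omegaPred p ≤ C * ((|loglog m| + 1) * ((m : ℝ) / Real.log m)) := by
  obtain ⟨Cπ, hCπ, hπ⟩ := exists_card_le
  obtain ⟨C, hC, hmom⟩ := exists_moments
  have hG : ∀ m, 2 ≤ m → 0 < (|loglog m| + 1) * ((m : ℝ) / Real.log m) := fun m hm =>
    mul_pos (by positivity) (div_log_pos hm)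
  have hkey : ∀ᶠ m : ℕ in atTop,
      |∑ p ∈ primesUpTo m, (omegaPred p - loglog p)| ≤
          ((C + 2) * Cπ + 1) * ((m : ℝ) / Real.log m) ∧
      ∑ p ∈ primesUpTo m, (omegaPred p - loglog p) ^ 2 ≤
          ((2 * C + 2) * Cπ + 2) * ((|loglog m| + 1) * ((m : ℝ) / Real.log m)) ∧
      ∑ p ∈ primesUpTo m, omegaPred p ≤
          ((C + 1) * Cπ) * ((|loglog m| + 1) * ((m : ℝ) / Real.log m)) := by
    filter_upwards [hmom, eventually_sum_loglog_sub, tendsto_loglog.eventually_ge_atTop 1,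
      eventually_ge_atTop 2] with m ⟨hm1, hm2⟩ hsq hx hm
    obtain ⟨u, hu⟩ : ∃ u, u = (m : ℝ) / Real.log m := ⟨_, rfl⟩
    have hu0 : 0 < u := hu ▸ div_log_pos hm
    have hQ := hπ m hm
    rw [← hu] at hQ hsq ⊢
    obtain ⟨Q, hQdef⟩ : ∃ Q : ℝ, Q = (primesUpTo m).card := ⟨_, rfl⟩
    have hQ0 : 0 ≤ Q := hQdef ▸ Nat.cast_nonneg _
    rw [← hQdef] at hm1 hm2 hQ hsq
    rw [abs_of_nonneg (show 0 ≤ loglog m by linarith)]
    have hlin : ∑ p ∈ primesUpTo m, (loglog m - loglog p) ≤ 2 * Q + u := by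
      refine (sum_le_sum (g := fun p => 1 + (loglog m - loglog p) ^ 2) fun p hp => ?_).trans ?_
      · nlinarith [sq_nonneg (loglog m - loglog p - 1), sq_nonneg (loglog m - loglog p)]
      · rw [sum_add_distrib, sum_const, nsmul_one, ← hQdef]
        linarith
    have hlin0 : 0 ≤ ∑ p ∈ primesUpTo m, (loglog m - loglog p) := sum_nonneg fun p hp =>
      sub_nonneg.2 (loglog_mono (mem_primesUpTo.1 hp).1.two_le (mem_primesUpTo.1 hp).2)
    have hCQ := mul_le_mul_of_nonneg_left hQ hC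
    refine ⟨?_, ?_, ?_⟩
    · rw [show ∑ p ∈ primesUpTo m, (omegaPred p - loglog p) =
        ∑ p ∈ primesUpTo m, (omegaPred p - loglog m) +
          ∑ p ∈ primesUpTo m, (loglog m - loglog p) by
        rw [← sum_add_distrib]; exact sum_congr rfl fun p _ => by ring]
      refine (abs_add_le _ _).trans ?_
      rw [abs_of_nonneg hlin0]
      linarith
    · refine (sum_le_sum (g := fun p => 2 * (omegaPred p - loglog m) ^ 2 +
        2 * (loglog m - loglog p) ^ 2) fun p _ => ?_).trans ?_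
      · nlinarith [sq_nonneg (omegaPred p - loglog m - (loglog m - loglog p))]
      · rw [sum_add_distrib, ← mul_sum, ← mul_sum]
        have h1 := mul_le_mul_of_nonneg_right hQ (show 0 ≤ loglog m by linarith)
        have h2 := mul_le_mul_of_nonneg_left h1 hC
        have h3 : u ≤ (loglog m + 1) * u := le_mul_of_one_le_left hu0.le (by linarith)
        have h4 := mul_le_mul_of_nonneg_left h3 hCπ
        have h5 := mul_nonneg (mul_nonneg hC hCπ) hu0.le
        linarith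
    · have h0 := (abs_le.1 hm1).2
      rw [sum_sub_distrib, sum_const, nsmul_eq_mul, ← hQdef] at h0
      have h1 := mul_le_mul_of_nonneg_right hQ (show 0 ≤ loglog m by linarith)
      have h2 := mul_nonneg (mul_nonneg hC hCπ) (mul_nonneg (show 0 ≤ loglog m by linarith) hu0.le)
      have h3 := mul_nonneg hCπ hu0.le
      linarith
  obtain ⟨C₁, hC₁, h1⟩ := exists_bound_of_eventually (fun m hm => div_log_pos hm)
    (hkey.mono fun m h => h.1)
  obtain ⟨C₂, hC₂, h2⟩ := exists_bound_of_eventually hG (hkey.mono fun m h => h.2.1)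
  obtain ⟨C₃, hC₃, h3⟩ := exists_bound_of_eventually hG (hkey.mono fun m h => h.2.2)
  refine ⟨C₁ + C₂ + C₃, by positivity, fun m hm => ⟨?_, ?_, ?_⟩⟩
  · exact (h1 m hm).trans (mul_le_mul_of_nonneg_right (by linarith) (div_log_pos hm).le)
  · exact (h2 m hm).trans (mul_le_mul_of_nonneg_right (by linarith) (hG m hm).le)
  · exact (h3 m hm).trans (mul_le_mul_of_nonneg_right (by linarith) (hG m hm).le)

/-- **The sums with the weights `1 / p`.** -/
theorem exists_weighted_sums : ∃ C : ℝ, 0 ≤ C ∧ ∀ N : ℕ, 2 ≤ N → 1 ≤ loglog N →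
    |(∑ p ∈ primesUpTo N, omegaPred p / p) - loglog N ^ 2 / 2| ≤ C * loglog N ∧
    ∑ p ∈ primesUpTo N, (omegaPred p - loglog p) ^ 2 / p ≤ C * loglog N ^ 2 ∧
    |(∑ p ∈ primesUpTo N, omegaPred p ^ 2 / p) - loglog N ^ 3 / 3| ≤
      C * (loglog N ^ 2 * Real.sqrt (loglog N)) := by
  obtain ⟨C, hC, hdev⟩ := exists_sum_dev
  obtain ⟨C', hC', hll⟩ := exists_loglog_sums
  obtain ⟨C₁, hC₁⟩ := FA.ErdosKac.exists_abs_recipSum_sub_le
  have hC₁0 : 0 ≤ C₁ := (abs_nonneg _).trans (hC₁ 2 le_rfl)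
  refine ⟨C' + 80 * C + 5 * (C₁ + 1), by positivity, fun N hN hx => ?_⟩
  obtain ⟨x, hxdef⟩ : ∃ x, x = loglog N := ⟨_, rfl⟩
  obtain ⟨hl1, hl2⟩ := hll N hN hx
  rw [← hxdef] at hx hl1 hl2 ⊢
  have h1 := abs_sum_div_le (h := fun p => omegaPred p - loglog p) hN fun m hm _ => (hdev m hm).1
  have h2 := abs_sum_div_le (h := fun p => (omegaPred p - loglog p) ^ 2) (M := C * (x + 2)) hN
    fun m hm hmN => by
      rw [abs_of_nonneg (sum_nonneg fun p _ => sq_nonneg _), mul_assoc]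
      refine ((hdev m hm).2.1).trans (mul_le_mul_of_nonneg_left (mul_le_mul_of_nonneg_right ?_
        (div_log_pos hm).le) hC)
      have := abs_loglog_le hm hmN (by linarith)
      linarith
  rw [← hxdef] at h1 h2
  obtain ⟨V, hV⟩ : ∃ V, V = ∑ p ∈ primesUpTo N, (omegaPred p - loglog p) ^ 2 / p := ⟨_, rfl⟩
  have hVle : V ≤ 15 * C * x ^ 2 := by
    rw [hV]
    refine ((le_abs_self _).trans h2).trans ?_
    rw [mul_assoc C, show 15 * C * x ^ 2 = C * (15 * x ^ 2) by ring]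
    refine mul_le_mul_of_nonneg_left ?_ hC
    nlinarith
  rw [← hV]
  obtain ⟨W, hW⟩ : ∃ W, W = ∑ p ∈ primesUpTo N, |omegaPred p - loglog p| / p := ⟨_, rfl⟩
  have hs1 : 1 ≤ Real.sqrt x := Real.one_le_sqrt.2 hx
  have hsx : Real.sqrt x * Real.sqrt x = x := Real.mul_self_sqrt (by linarith)
  have hWle : W ≤ (15 * C + C₁ + 1) * (x * Real.sqrt x) := by
    have hR : recipSum N ≤ (C₁ + 1) * x := by
      have h := (abs_le.1 (hC₁ N hN)).2
      have hh : Real.log (Real.log N) = x := hxdef ▸ rfl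
      have := le_mul_of_one_le_right hC₁0 hx
      linarith
    rw [hW]
    refine (sum_le_sum (g := fun p : ℕ => (omegaPred p - loglog p) ^ 2 / p / Real.sqrt x +
      Real.sqrt x * (p : ℝ)⁻¹) fun p _ => ?_).trans ?_
    · rw [← sq_abs (omegaPred p - loglog p)]
      obtain ⟨d, hd⟩ : ∃ d, d = |omegaPred p - loglog p| := ⟨_, rfl⟩
      have hd0 : 0 ≤ d := hd ▸ abs_nonneg _
      rw [← hd, show d ^ 2 / p / Real.sqrt x + Real.sqrt x * (p : ℝ)⁻¹ =
        (d ^ 2 / Real.sqrt x + Real.sqrt x) / p by ring]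
      refine div_le_div_of_nonneg_right ?_ (Nat.cast_nonneg _)
      rw [div_add' _ _ _ (by linarith), le_div_iff₀ (by linarith)]
      nlinarith [sq_nonneg (d - Real.sqrt x)]
    · rw [sum_add_distrib, ← sum_div, ← hV, ← mul_sum]
      have e1 : V / Real.sqrt x ≤ 15 * C * (x * Real.sqrt x) := by
        rw [div_le_iff₀ (by linarith)]
        refine hVle.trans (le_of_eq ?_)
        linear_combination (-(15 * C * x)) * hsx
      have e2 := mul_le_mul_of_nonneg_left hR (Real.sqrt_nonneg x)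
      have e3 : recipSum N = ∑ p ∈ primesUpTo N, (p : ℝ)⁻¹ := rfl
      rw [e3] at e2
      linarith
  have hsum1 : (∑ p ∈ primesUpTo N, omegaPred p / p) =
      (∑ p ∈ primesUpTo N, loglog p / p) + ∑ p ∈ primesUpTo N, (omegaPred p - loglog p) / p := by
    rw [← sum_add_distrib]
    exact sum_congr rfl fun p _ => by ring
  have hsum2 : (∑ p ∈ primesUpTo N, omegaPred p ^ 2 / p) =
      (∑ p ∈ primesUpTo N, loglog p ^ 2 / p) + V +
        ∑ p ∈ primesUpTo N, 2 * loglog p * (omegaPred p - loglog p) / p := by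
    rw [hV, ← sum_add_distrib, ← sum_add_distrib]
    exact sum_congr rfl fun p _ => by ring
  have h3 : |∑ p ∈ primesUpTo N, 2 * loglog p * (omegaPred p - loglog p) / p| ≤
      2 * (x + 1) * W := by
    rw [hW, mul_sum]
    refine (abs_sum_le_sum_abs _ _).trans (sum_le_sum fun p hp => ?_)
    obtain ⟨hpp, hpN⟩ := mem_primesUpTo.1 hp
    rw [abs_div, Nat.abs_cast, abs_mul, abs_mul, abs_two, mul_div_assoc]
    refine mul_le_mul_of_nonneg_right ?_ (div_nonneg (abs_nonneg _) (Nat.cast_nonneg _))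
    linarith [hxdef ▸ abs_loglog_le hpp.two_le hpN (hxdef ▸ (by linarith : (0 : ℝ) ≤ x))]
  have hW0 : 0 ≤ W := hW ▸ sum_nonneg fun p _ => by positivity
  have h4 : 2 * (x + 1) * W ≤ 4 * ((15 * C + C₁ + 1) * (x ^ 2 * Real.sqrt x)) := by
    have := mul_le_mul (show 2 * (x + 1) ≤ 4 * x by linarith) hWle hW0 (by linarith)
    linarith
  have h5 : x ^ 2 ≤ x ^ 2 * Real.sqrt x := le_mul_of_one_le_right (sq_nonneg x) hs1
  have hCx : 0 ≤ C * (x ^ 2 * Real.sqrt x) := by positivity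
  have hC1x : 0 ≤ C₁ * (x ^ 2 * Real.sqrt x) := by positivity
  obtain ⟨a1, a2⟩ := abs_le.1 h1
  obtain ⟨b1, b2⟩ := abs_le.1 hl1
  obtain ⟨c1, c2⟩ := abs_le.1 hl2
  obtain ⟨d1, d2⟩ := abs_le.1 h3
  have hV0 : 0 ≤ V := hV ▸ sum_nonneg fun p _ => by positivity
  have hx4 : C * (x + 4) ≤ 5 * C * x := by nlinarith
  have hC'x := mul_le_mul_of_nonneg_left h5 hC'
  have hCx2 := mul_le_mul_of_nonneg_left h5 hC
  have hC1x1 : 0 ≤ C₁ * x := mul_nonneg hC₁0 (by linarith)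
  have hC1x2 : 0 ≤ C₁ * x ^ 2 := mul_nonneg hC₁0 (sq_nonneg x)
  have hCx1 : 0 ≤ C * x := mul_nonneg hC (by linarith)
  have hC'x2 : 0 ≤ C' * x ^ 2 := mul_nonneg hC' (sq_nonneg x)
  refine ⟨abs_le.2 ⟨?_, ?_⟩, ?_, abs_le.2 ⟨?_, ?_⟩⟩ <;> nlinarith

end FA.OmegaPhi

end
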