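import Fermat.Agent.ErdosKac.Model
import Fermat.Agent.PointCountErdosKac.Model
import Fermat.Agent.Delange.Basic

/-!
# Weights on the small primes against the independent model

For `|1 + z q| ≤ 1` the average over `n ≤ N` of `∏ (1 + z q)`, over the primes `q ∈ P` dividing
`n`, is `exp (∑ z q / q)` up to the truncation error, `(2 (#P + 1)) ^ K / N` and
`∑ |z q / q| ^ 2`.
-/

set_option autoImplicit false

noncomputable section

namespace FA.OmegaPhi

open Finset

/-- The expansion of a product up to the degree `< K`. -/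
def truncSum (u : ℕ → ℂ) (F : Finset ℕ) (K : ℕ) : ℂ :=
  ∑ k ∈ range K, ∑ T ∈ F.powersetCard k, ∏ q ∈ T, u q

theorem sum_powersetCard_insert {R : Type*} [CommSemiring R] (g : ℕ → R) {F : Finset ℕ} {a : ℕ}
    (ha : a ∉ F) (k : ℕ) :
    ∑ T ∈ (insert a F).powersetCard (k + 1), ∏ q ∈ T, g q =
      (∑ T ∈ F.powersetCard (k + 1), ∏ q ∈ T, g q) +
        g a * ∑ T ∈ F.powersetCard k, ∏ q ∈ T, g q := by
  have hmem : ∀ T ∈ F.powersetCard k, a ∉ T := fun T hT h => ha ((mem_powersetCard.1 hT).1 h)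
  rw [powersetCard_succ_insert ha, sum_union, sum_image fun T hT T' hT' h => by
    rw [← erase_insert (hmem T hT), ← erase_insert (hmem T' hT'), h], mul_sum]
  · congr 1
    exact sum_congr rfl fun T hT => prod_insert (hmem T hT)
  · refine disjoint_left.2 fun T hT hT' => ?_
    obtain ⟨U, -, rfl⟩ := mem_image.1 hT'
    exact ha ((mem_powersetCard.1 hT).1 (mem_insert_self a U))

/-- **The truncation error of a product in the unit disc.** -/
theorem norm_prod_sub_truncSum_le {u : ℕ → ℂ} {F : Finset ℕ} (hu : ∀ q ∈ F, ‖1 + u q‖ ≤ 1)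
    (K : ℕ) :
    ‖∏ q ∈ F, (1 + u q) - truncSum u F K‖ ≤
      ∑ T ∈ F.powersetCard K, ∏ q ∈ T, ‖u q‖ := by
  induction F using Finset.induction_on generalizing K with
  | empty =>
    cases K with
    | zero => simp [truncSum]
    | succ K =>
      simp [truncSum, sum_range_succ', fun k : ℕ => powersetCard_eq_empty.2
        (show (∅ : Finset ℕ).card < k + 1 by simp)]
  | insert a F ha ih =>
    simp only [mem_insert, forall_eq_or_imp] at hu
    cases K with
    | zero =>
      simp only [truncSum, range_zero, sum_empty, sub_zero, powersetCard_zero, sum_singleton,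
        prod_empty]
      rw [norm_prod]
      refine prod_le_one (fun _ _ => norm_nonneg _) fun q hq => ?_
      rcases mem_insert.1 hq with rfl | hq
      exacts [hu.1, hu.2 q hq]
    | succ K =>
      have e : truncSum u (insert a F) (K + 1) =
          truncSum u F (K + 1) + u a * truncSum u F K := by
        rw [truncSum, truncSum, truncSum, sum_range_succ', sum_range_succ',
          sum_congr rfl fun k _ => sum_powersetCard_insert u ha k, sum_add_distrib, ← mul_sum]
        simp only [powersetCard_zero, sum_singleton, prod_empty]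
        ring
      rw [e, prod_insert ha, sum_powersetCard_insert (fun q => ‖u q‖) ha K,
        show (1 + u a) * ∏ q ∈ F, (1 + u q) - (truncSum u F (K + 1) + u a * truncSum u F K) =
          (∏ q ∈ F, (1 + u q) - truncSum u F (K + 1)) +
            u a * (∏ q ∈ F, (1 + u q) - truncSum u F K) by ring]
      refine (norm_add_le _ _).trans (add_le_add (ih hu.2 _) ?_)
      rw [norm_mul]
      exact mul_le_mul_of_nonneg_left (ih hu.2 _) (norm_nonneg _)

/-- **The average against the exponential of the mean.** -/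
theorem norm_avg_prod_sub_exp_le {z : ℕ → ℂ} {P : Finset ℕ} (hP : ∀ q ∈ P, q.Prime)
    (hz : ∀ q ∈ P, ‖1 + z q‖ ≤ 1) {K : ℕ} (hK : 6 * ∑ q ∈ P, ‖z q‖ / q ≤ K) {N : ℕ}
    (hN : 0 < N) :
    ‖(∑ n ∈ Icc 1 N, ∏ q ∈ P.filter (· ∣ n), (1 + z q)) / (N : ℂ) -
        Complex.exp (∑ q ∈ P, z q / (q : ℂ))‖ ≤
      2 * (1 / 2) ^ K + ((K : ℝ) + 1) * (2 * ((P.card : ℝ) + 1)) ^ K / N +
        2 * ∑ q ∈ P, (‖z q‖ / q) ^ 2 := by
  have hN0 : (0 : ℝ) < N := Nat.cast_pos.2 hN
  have hz2 : ∀ q ∈ P, ‖z q‖ ≤ 2 := fun q hq => by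
    have := norm_sub_le (1 + z q) 1
    rw [add_sub_cancel_left, norm_one] at this
    linarith [hz q hq]
  have hnn : ∀ q ∈ P, 0 ≤ ‖z q‖ / q := fun q _ => by positivity
  have hzq : ∀ q ∈ P, ‖1 + z q / (q : ℂ)‖ ≤ 1 := fun q hq => by
    have hq0 : (q : ℂ) ≠ 0 := Nat.cast_ne_zero.2 (hP q hq).ne_zero
    have hq1 : (1 : ℝ) ≤ q := Nat.one_le_cast.2 (hP q hq).one_le
    rw [one_add_div hq0, norm_div, Complex.norm_natCast, div_le_one (by linarith),
      show (q : ℂ) + z q = (((q : ℝ) - 1 : ℝ) : ℂ) + (1 + z q) by push_cast; ring]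
    refine (norm_add_le _ _).trans ?_
    rw [Complex.norm_real, Real.norm_of_nonneg (by linarith)]
    linarith [hz q hq]
  -- the truncation
  have hesymm : ∑ T ∈ P.powersetCard K, ∏ q ∈ T, ‖z q‖ / q ≤ (1 / 2) ^ K :=
    (PointEK.esymm_le hnn K).trans (ErdosKac.pow_div_factorial_le (sum_nonneg hnn) hK le_rfl)
  have hcount : ∀ T ⊆ P, ∑ n ∈ Icc 1 N, (if T ⊆ P.filter (· ∣ n) then (1 : ℝ) else 0) =
      ((N / ∏ q ∈ T, q : ℕ) : ℝ) := fun T hT => by
    rw [sum_boole, ErdosKac.card_filter_dvd_all hP hT]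
  have hswap : ∀ (g : ℕ → ℂ) (k : ℕ), ∑ n ∈ Icc 1 N,
      ∑ T ∈ (P.filter (· ∣ n)).powersetCard k, ∏ q ∈ T, g q =
        ∑ T ∈ P.powersetCard k, ((N / ∏ q ∈ T, q : ℕ) : ℂ) * ∏ q ∈ T, g q := fun g k => by
    rw [sum_congr rfl fun n _ => show ∑ T ∈ (P.filter (· ∣ n)).powersetCard k, ∏ q ∈ T, g q =
      ∑ T ∈ P.powersetCard k, if T ⊆ P.filter (· ∣ n) then ∏ q ∈ T, g q else 0 by
        rw [← sum_filter]
        refine sum_congr ?_ fun _ _ => rfl
        ext T
        simp only [mem_powersetCard, mem_filter]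
        exact ⟨fun h => ⟨⟨h.1.trans (filter_subset _ _), h.2⟩, h.1⟩, fun h => ⟨h.2, h.1.2⟩⟩,
      sum_comm]
    refine sum_congr rfl fun T hT => ?_
    have h := hcount T (mem_powersetCard.1 hT).1
    rw [sum_boole, Nat.cast_inj] at h
    rw [← sum_filter, sum_const, nsmul_eq_mul, h]
  have h1 : ‖(∑ n ∈ Icc 1 N, ∏ q ∈ P.filter (· ∣ n), (1 + z q)) / (N : ℂ) -
      (∑ n ∈ Icc 1 N, truncSum z (P.filter (· ∣ n)) K) / (N : ℂ)‖ ≤ (1 / 2) ^ K := by
    rw [← sub_div, ← sum_sub_distrib, norm_div, Complex.norm_natCast, div_le_iff₀ hN0]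
    refine (norm_sum_le _ _).trans ((sum_le_sum fun n _ => norm_prod_sub_truncSum_le
      (fun q hq => hz q (mem_filter.1 hq).1) K).trans ?_)
    have h := congrArg Complex.re (hswap (fun q => (‖z q‖ : ℂ)) K)
    simp only [Complex.re_sum, ← Complex.ofReal_prod, ← Complex.ofReal_natCast,
      ← Complex.ofReal_mul, Complex.ofReal_re] at h
    rw [h, mul_comm, ← div_le_iff₀' hN0, sum_div]
    refine (sum_le_sum fun T _ => ?_).trans hesymm
    rw [prod_div_distrib, ← Nat.cast_prod, div_le_iff₀ hN0]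
    refine (mul_le_mul_of_nonneg_right Nat.cast_div_le (prod_nonneg fun _ _ => norm_nonneg _)).trans
      (le_of_eq (by ring))
  have h2 : ‖(∑ n ∈ Icc 1 N, truncSum z (P.filter (· ∣ n)) K) / (N : ℂ) -
      truncSum (fun q => z q / (q : ℂ)) P K‖ ≤
        ((K : ℝ) + 1) * (2 * ((P.card : ℝ) + 1)) ^ K / N := by
    rw [truncSum, show ∑ n ∈ Icc 1 N, truncSum z (P.filter (· ∣ n)) K =
        ∑ k ∈ range K, ∑ T ∈ P.powersetCard k, ((N / ∏ q ∈ T, q : ℕ) : ℂ) * ∏ q ∈ T, z q by
      simp only [truncSum]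
      rw [sum_comm]
      exact sum_congr rfl fun k _ => hswap z k, sum_div, ← sum_sub_distrib]
    refine (norm_sum_le _ _).trans
      ((sum_le_card_nsmul _ _ ((2 * ((P.card : ℝ) + 1)) ^ K / N) fun k hk => ?_).trans ?_)
    · rw [sum_div, ← sum_sub_distrib]
      refine (norm_sum_le _ _).trans
        ((sum_le_card_nsmul _ _ ((2 : ℝ) ^ k / N) fun T hT => ?_).trans ?_)
      · obtain ⟨hTP, hTk⟩ := mem_powersetCard.1 hT
        have hd0 : 0 < ∏ q ∈ T, q := prod_pos fun q hq => (hP q (hTP hq)).pos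
        obtain ⟨d, hd⟩ : ∃ d, d = ∏ q ∈ T, q := ⟨_, rfl⟩
        rw [prod_div_distrib, ← Nat.cast_prod, ← hd,
          show ((N / d : ℕ) : ℂ) * (∏ q ∈ T, z q) / (N : ℂ) - (∏ q ∈ T, z q) / (d : ℂ) =
            (∏ q ∈ T, z q) * ((((N / d : ℕ) : ℝ) / N - 1 / d : ℝ) : ℂ) by push_cast; ring,
          norm_mul, Complex.norm_real, Real.norm_eq_abs, norm_prod,
          show (2 : ℝ) ^ k / N = 2 ^ k * (1 / N) by ring]
        refine mul_le_mul ((prod_le_prod (fun _ _ => norm_nonneg _) fun q hq =>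
          hz2 q (hTP hq)).trans (le_of_eq (by rw [prod_const, hTk]))) ?_ (abs_nonneg _)
          (by positivity)
        have hd1 : (0 : ℝ) < d := Nat.cast_pos.2 (hd ▸ hd0)
        have hup : ((N / d : ℕ) : ℝ) ≤ (N : ℝ) / d := Nat.cast_div_le
        have hlo : (N : ℝ) / d - 1 ≤ ((N / d : ℕ) : ℝ) := by
          rw [← Nat.floor_div_eq_div (K := ℝ)]
          linarith [Nat.lt_floor_add_one ((N : ℝ) / d)]
        rw [le_div_iff₀ hd1] at hup
        rw [sub_le_iff_le_add, div_le_iff₀ hd1] at hlo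
        rw [div_sub_div _ _ hN0.ne' hd1.ne', abs_div, abs_of_pos (mul_pos hN0 hd1),
          div_le_div_iff₀ (mul_pos hN0 hd1) hN0, one_mul, mul_comm (N : ℝ) (d : ℝ)]
        refine mul_le_mul_of_nonneg_right ?_ hN0.le
        rw [abs_le]
        constructor <;> linarith
      · rw [nsmul_eq_mul, card_powersetCard, mul_div_assoc', mul_pow]
        refine div_le_div_of_nonneg_right (le_trans (mul_le_mul_of_nonneg_right
          (Nat.cast_le.2 (Nat.choose_le_pow _ k)) (by positivity)) ?_) hN0.le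
        rw [Nat.cast_pow, mul_comm]
        have hk' : k ≤ K := (mem_range.1 hk).le
        exact mul_le_mul (pow_le_pow_right₀ one_le_two hk')
          ((pow_le_pow_left₀ (Nat.cast_nonneg _) (le_add_of_nonneg_right zero_le_one) k).trans
            (pow_le_pow_right₀ (le_add_of_nonneg_left (Nat.cast_nonneg _)) hk'))
          (by positivity) (by positivity)
    · rw [card_range, nsmul_eq_mul, mul_div_assoc]
      exact mul_le_mul_of_nonneg_right (le_add_of_nonneg_right zero_le_one) (by positivity)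
  have h3 : ‖truncSum (fun q => z q / (q : ℂ)) P K - ∏ q ∈ P, (1 + z q / (q : ℂ))‖ ≤
      (1 / 2) ^ K := by
    rw [norm_sub_rev]
    refine (norm_prod_sub_truncSum_le hzq K).trans (le_of_eq_of_le ?_ hesymm)
    exact sum_congr rfl fun T _ => prod_congr rfl fun q _ => by
      rw [norm_div, Complex.norm_natCast]
  have h4 : ‖∏ q ∈ P, (1 + z q / (q : ℂ)) - Complex.exp (∑ q ∈ P, z q / (q : ℂ))‖ ≤
      2 * ∑ q ∈ P, (‖z q‖ / q) ^ 2 := by
    rw [Complex.exp_sum]
    refine (Delange.norm_prod_sub_prod_le P _ _ hzq fun q hq => ?_).trans ?_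
    · refine Delange.norm_exp_le_one ?_
      have := Delange.re_sub_one_nonpos (hzq q hq)
      rwa [add_sub_cancel_left] at this
    · rw [mul_sum]
      refine sum_le_sum fun q hq => ?_
      have := Delange.norm_sub_exp_le (hzq q hq)
      rwa [add_sub_cancel_left, norm_div, Complex.norm_natCast] at this
  have t1 := norm_sub_le_norm_sub_add_norm_sub
    ((∑ n ∈ Icc 1 N, ∏ q ∈ P.filter (· ∣ n), (1 + z q)) / (N : ℂ))
    ((∑ n ∈ Icc 1 N, truncSum z (P.filter (· ∣ n)) K) / (N : ℂ))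
    (truncSum (fun q => z q / (q : ℂ)) P K)
  have t2 := norm_sub_le_norm_sub_add_norm_sub
    ((∑ n ∈ Icc 1 N, ∏ q ∈ P.filter (· ∣ n), (1 + z q)) / (N : ℂ))
    (truncSum (fun q => z q / (q : ℂ)) P K) (∏ q ∈ P, (1 + z q / (q : ℂ)))
  have t3 := norm_sub_le_norm_sub_add_norm_sub
    ((∑ n ∈ Icc 1 N, ∏ q ∈ P.filter (· ∣ n), (1 + z q)) / (N : ℂ))
    (∏ q ∈ P, (1 + z q / (q : ℂ))) (Complex.exp (∑ q ∈ P, z q / (q : ℂ)))
  linarith

end FA.OmegaPhi

end
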