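import Fermat.Agent.OmegaPhi.Totient
import Fermat.Agent.OmegaPhi.Weighted

/-!
# The Gaussian law for the number of prime factors of `φ n`

`∑_{p ∣ n} ω (p - 1)` over the primes up to `exp (log N / log log N)` follows the independent
model with the mean `(log log N) ^ 2 / 2` and the variance `(log log N) ^ 3 / 3`; everything else
is `o ((log log N) ^ (3/2))` on average.
-/

set_option autoImplicit false

noncomputable section

namespace FA.OmegaPhi

open Finset Filter
open FA.ErdosKac (primesUpTo mem_primesUpTo recipSum loglog cut tendsto_loglog)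
open FA.PointEK (truncLen)
open scoped Topology ArithmeticFunction.Omega

/-- The variance `(log log N) ^ 3 / 3`. -/
def spread (N : ℕ) : ℝ := loglog N ^ 3 / 3

theorem tendsto_spread : Tendsto spread atTop atTop :=
  ((tendsto_pow_atTop (by norm_num : (3 : ℕ) ≠ 0)).comp tendsto_loglog).atTop_div_const
    (by norm_num)

theorem norm_exp_rem_le (x : ℝ) :
    ‖Complex.exp ((x : ℂ) * Complex.I) - 1 - (x : ℂ) * Complex.I + (x : ℂ) ^ 2 / 2‖ ≤
      4 * x ^ 2 ∧
    (|x| ≤ 1 →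
      ‖Complex.exp ((x : ℂ) * Complex.I) - 1 - (x : ℂ) * Complex.I + (x : ℂ) ^ 2 / 2‖ ≤
        |x| ^ 3) := by
  have e : Complex.exp ((x : ℂ) * Complex.I) - 1 - (x : ℂ) * Complex.I + (x : ℂ) ^ 2 / 2 =
      Complex.exp ((x : ℂ) * Complex.I) -
        ∑ m ∈ range 3, ((x : ℂ) * Complex.I) ^ m / m.factorial := by
    simp only [sum_range_succ, sum_range_zero, Nat.factorial]
    push_cast
    simp only [mul_pow, Complex.I_sq, pow_zero, pow_one]
    ring
  have h3 : |x| ≤ 1 →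
      ‖Complex.exp ((x : ℂ) * Complex.I) - 1 - (x : ℂ) * Complex.I + (x : ℂ) ^ 2 / 2‖ ≤
        |x| ^ 3 := fun hx => by
    have h := Complex.exp_bound (x := (x : ℂ) * Complex.I) (by simpa using hx)
      (show 0 < 3 by norm_num)
    rw [norm_mul, Complex.norm_I, mul_one, Complex.norm_real, Real.norm_eq_abs] at h
    rw [e]
    refine h.trans (mul_le_of_le_one_right (by positivity) ?_)
    norm_num [Nat.factorial]
  refine ⟨?_, h3⟩
  rcases le_or_gt |x| 1 with hx | hx
  · refine (h3 hx).trans ?_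
    have := mul_le_mul_of_nonneg_left hx (sq_nonneg x)
    rw [pow_succ, sq_abs]
    linarith [sq_nonneg x]
  · have h1 := norm_add_le (Complex.exp ((x : ℂ) * Complex.I) - 1 - (x : ℂ) * Complex.I)
      ((x : ℂ) ^ 2 / 2)
    have h2 := norm_sub_le (Complex.exp ((x : ℂ) * Complex.I) - 1) ((x : ℂ) * Complex.I)
    have h4 := norm_sub_le (Complex.exp ((x : ℂ) * Complex.I)) 1
    have e1 : ‖(x : ℂ) * Complex.I‖ = |x| := by simp
    have e2 : ‖(x : ℂ) ^ 2 / 2‖ = x ^ 2 / 2 := by simp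
    rw [Complex.norm_exp_ofReal_mul_I, norm_one] at h4
    have := sq_abs x
    nlinarith

theorem logSq_le (n : ℕ) (hn : 1 ≤ n) : omegaPred n ^ 2 ≤ 64 * (n : ℝ) ^ (1 / 2 : ℝ) := by
  rw [omegaPred]
  obtain ⟨k, hk⟩ : ∃ k, k = (n - 1).primeFactors.card := ⟨_, rfl⟩
  rw [← hk]
  have hn0 : (0 : ℝ) < n := Nat.cast_pos.2 hn
  have hle : (2 : ℝ) ^ k ≤ n := by
    rcases Nat.eq_zero_or_pos (n - 1) with h | h
    · rw [show k = 0 by rw [hk, h]; simp, pow_zero]
      exact Nat.one_le_cast.2 hn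
    · have h1 : 2 ^ k ≤ n - 1 := hk ▸ (pow_card_le_prod _ _ 2 fun q hq =>
        (Nat.prime_of_mem_primeFactors hq).two_le).trans
          (Nat.le_of_dvd h (Nat.prod_primeFactors_dvd _))
      exact_mod_cast h1.trans (Nat.sub_le n 1)
  have h2 := Real.log_le_log (by positivity) hle
  rw [Real.log_pow] at h2
  have h3 := Real.log_le_rpow_div hn0.le (show (0 : ℝ) < 1 / 4 by norm_num)
  have h4 := mul_le_mul_of_nonneg_left Real.log_two_gt_d9.le (Nat.cast_nonneg (α := ℝ) k)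
  have h5 : (k : ℝ) ≤ 8 * (n : ℝ) ^ (1 / 4 : ℝ) := by linarith
  refine (pow_le_pow_left₀ (Nat.cast_nonneg _) h5 2).trans (le_of_eq ?_)
  rw [mul_pow, ← Real.rpow_natCast ((n : ℝ) ^ (1 / 4 : ℝ)) 2, ← Real.rpow_mul hn0.le]
  norm_num

theorem exists_sum_sq_div_sq_le : ∃ C : ℝ, 0 ≤ C ∧ ∀ N : ℕ,
    ∑ p ∈ primesUpTo N, (omegaPred p / p) ^ 2 ≤ C := by
  have hs : Summable fun n : ℕ => 64 * (1 / (n : ℝ) ^ (3 / 2 : ℝ)) :=
    (Real.summable_one_div_nat_rpow.2 (by norm_num)).mul_left 64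
  refine ⟨∑' n : ℕ, 64 * (1 / (n : ℝ) ^ (3 / 2 : ℝ)), tsum_nonneg fun n => by positivity,
    fun N => (sum_le_sum fun p hp => ?_).trans
      (hs.sum_le_tsum (primesUpTo N) fun n _ => by positivity)⟩
  have hp1 : 1 ≤ p := (mem_primesUpTo.1 hp).1.one_le
  have hp0 : (0 : ℝ) < p := Nat.cast_pos.2 hp1
  rw [div_pow, div_le_iff₀ (by positivity)]
  refine (logSq_le p hp1).trans (le_of_eq ?_)
  rw [mul_assoc, one_div ((p : ℝ) ^ (3 / 2 : ℝ)), ← Real.rpow_neg hp0.le,
    ← Real.rpow_natCast (p : ℝ) 2,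
    ← Real.rpow_add hp0]
  norm_num

/-- The first two sums up to the cut against those up to `N`. -/
theorem exists_cut_sums : ∃ C : ℝ, 0 ≤ C ∧ ∀ᶠ N : ℕ in atTop,
    (∑ p ∈ primesUpTo (cut N), omegaPred p / p) ≤ ∑ p ∈ primesUpTo N, omegaPred p / p ∧
    |(∑ p ∈ primesUpTo N, omegaPred p / p) - loglog N ^ 2 / 2| ≤ C * loglog N ∧
    |(∑ p ∈ primesUpTo (cut N), omegaPred p / p) - loglog N ^ 2 / 2| ≤
      C * (loglog N * (Real.log (loglog N) + 1)) ∧
    |(∑ p ∈ primesUpTo (cut N), omegaPred p ^ 2 / p) - spread N| ≤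
      C * (loglog N ^ 2 * (Real.sqrt (loglog N) + Real.log (loglog N))) ∧
    ∑ p ∈ primesUpTo N, (omegaPred p - loglog p) ^ 2 / p ≤ C * loglog N ^ 2 := by
  obtain ⟨C, hC, h⟩ := exists_weighted_sums
  refine ⟨C + 2, by positivity, ?_⟩
  have hl : Tendsto (fun N : ℕ => loglog N - Real.log (loglog N)) atTop atTop := by
    refine tendsto_atTop_mono' atTop ?_ 
      (tendsto_loglog.atTop_div_const (show (0 : ℝ) < 2 by norm_num))
    filter_upwards [tendsto_loglog.eventually_ge_atTop 1,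
      (Real.isLittleO_log_id_atTop.comp_tendsto tendsto_loglog).bound
        (show (0 : ℝ) < 1 / 2 by norm_num)] with N h1 h2
    simp only [Function.comp_apply, id, Real.norm_eq_abs] at h2
    rw [abs_of_pos (show 0 < loglog N by linarith)] at h2
    linarith [le_abs_self (Real.log (loglog N))]
  filter_upwards [FA.ErdosKac.eventually_cut, tendsto_loglog.eventually_ge_atTop 1,
    hl.eventually_ge_atTop 2, eventually_ge_atTop 2] with N ⟨hc2, hcN, hcl⟩ hx hxl hN
  obtain ⟨x, hxdef⟩ : ∃ x, x = loglog N := ⟨_, rfl⟩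
  obtain ⟨y, hy⟩ : ∃ y, y = loglog (cut N) := ⟨_, rfl⟩
  obtain ⟨l, hldef⟩ : ∃ l, l = Real.log x := ⟨_, rfl⟩
  have hyx : y ≤ x := hy ▸ hxdef ▸ loglog_mono hc2 hcN
  rw [← hxdef] at hx hxl hcl ⊢
  rw [← hldef] at hxl hcl ⊢
  have hl0 : 0 ≤ l := hldef ▸ Real.log_nonneg hx
  have hcl' : |y - (x - l)| ≤ 1 := by
    rw [hy, loglog]
    exact hcl
  obtain ⟨c1, c2⟩ := abs_le.1 hcl'
  have hy1 : 1 ≤ y := by linarith
  obtain ⟨a1, a2, a3⟩ := h N hN (hxdef ▸ hx)
  obtain ⟨b1, b2, b3⟩ := h (cut N) hc2 (hy ▸ hy1)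
  rw [← hxdef] at a1 a2 a3
  rw [← hy] at b1 b2 b3
  rw [spread, ← hxdef]
  refine ⟨sum_le_sum_of_subset_of_nonneg (primesUpTo_mono hcN)
    fun p _ _ => div_nonneg (omegaPred_nonneg p) (Nat.cast_nonneg p), ?_, ?_, ?_, ?_⟩
  · exact a1.trans (mul_le_mul_of_nonneg_right (by linarith) (by linarith))
  · refine (abs_sub_le _ (y ^ 2 / 2) _).trans ((add_le_add b1 (le_refl _)).trans ?_)
    have h1 : |y ^ 2 / 2 - x ^ 2 / 2| ≤ x * (l + 1) := by
      rw [abs_le]
      constructor <;> nlinarith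
    have h2 : C * y ≤ C * (x * (l + 1)) :=
      mul_le_mul_of_nonneg_left (hyx.trans (le_mul_of_one_le_right (by linarith) (by linarith))) hC
    have h3 : 0 ≤ x * (l + 1) := by positivity
    linarith
  · refine (abs_sub_le _ (y ^ 3 / 3) _).trans ((add_le_add b3 (le_refl _)).trans ?_)
    have hs1 : 1 ≤ Real.sqrt x := Real.one_le_sqrt.2 hx
    have h1 : |y ^ 3 / 3 - x ^ 3 / 3| ≤ x ^ 2 * (l + 1) := by
      have e1 : y ^ 2 ≤ x ^ 2 := pow_le_pow_left₀ (by linarith) hyx 2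
      have e2 : y * x ≤ x ^ 2 := by
        rw [sq]
        exact mul_le_mul_of_nonneg_right hyx (by linarith)
      have e3 := mul_le_mul_of_nonneg_left (show y ^ 2 + y * x + x ^ 2 ≤ 3 * x ^ 2 by linarith)
        (show 0 ≤ x - y by linarith)
      have e4 := mul_le_mul_of_nonneg_right (show x - y ≤ l + 1 by linarith) (sq_nonneg x)
      have e5 : 0 ≤ x ^ 3 - y ^ 3 :=
        sub_nonneg.2 (pow_le_pow_left₀ (by linarith) hyx 3)
      have e6 : (x - y) * (y ^ 2 + y * x + x ^ 2) = x ^ 3 - y ^ 3 := by ring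
      rw [abs_le]
      constructor <;> linarith
    have h2 : C * (y ^ 2 * Real.sqrt y) ≤ C * (x ^ 2 * (Real.sqrt x + l)) := by
      refine mul_le_mul_of_nonneg_left (mul_le_mul (pow_le_pow_left₀ (by linarith) hyx 2)
        ((Real.sqrt_le_sqrt hyx).trans (le_add_of_nonneg_right hl0)) (Real.sqrt_nonneg _)
        (sq_nonneg x)) hC
    have h3 : x ^ 2 * (l + 1) ≤ x ^ 2 * (Real.sqrt x + l) :=
      mul_le_mul_of_nonneg_left (by linarith) (sq_nonneg x)
    have h4 : 0 ≤ x ^ 2 * (Real.sqrt x + l) := by positivity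
    linarith
  · exact a2.trans (mul_le_mul_of_nonneg_right (by linarith) (sq_nonneg x))

/-- The truncated character, centred. -/
def cutChar (N : ℕ) (t : ℝ) : ℂ :=
  (∑ n ∈ Icc 1 N, Complex.exp ((t / Real.sqrt (spread N) *
    ((∑ p ∈ (primesUpTo (cut N)).filter (· ∣ n), omegaPred p) -
      ∑ p ∈ primesUpTo (cut N), omegaPred p / p) : ℝ) * Complex.I)) / (N : ℂ)

theorem tendsto_log_div_sqrt (c d : ℝ) :
    Tendsto (fun N : ℕ => (c + d * Real.log (loglog N)) / Real.sqrt (loglog N)) atTop (𝓝 0) := by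
  have h1 : Tendsto (fun x : ℝ => Real.log x / Real.sqrt x) atTop (𝓝 0) := by
    refine ((isLittleO_log_rpow_atTop
      (show (0 : ℝ) < 1 / 2 by norm_num)).tendsto_div_nhds_zero).congr fun x => ?_
    rw [Real.sqrt_eq_rpow]
  have h2 : Tendsto (fun x : ℝ => c / Real.sqrt x) atTop (𝓝 0) :=
    tendsto_const_nhds.div_atTop Real.tendsto_sqrt_atTop
  have h := h2.add (h1.const_mul d)
  rw [mul_zero, add_zero] at h
  refine (h.comp tendsto_loglog).congr fun N => ?_
  simp only [Function.comp_apply]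
  ring

theorem sqrt_spread_eq {N : ℕ} (hx : 0 ≤ loglog N) :
    Real.sqrt (spread N) = loglog N * Real.sqrt (loglog N) / Real.sqrt 3 := by
  rw [spread, Real.sqrt_div' _ (by norm_num : (0 : ℝ) ≤ 3), pow_succ, Real.sqrt_mul (sq_nonneg _),
    Real.sqrt_sq hx]

/-- The decay of the truncation error. -/
theorem tendsto_trunc_error (t : ℝ) :
    Tendsto (fun N : ℕ => ((truncLen t (loglog N) : ℝ) + 1) *
      (2 * (((primesUpTo (cut N)).card : ℝ) + 1)) ^ truncLen t (loglog N) / N) atTop (𝓝 0) := by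
  have h := ((isLittleO_log_rpow_rpow_atTop (4 : ℝ) (show (0 : ℝ) < 3 / 4 by norm_num)
    ).tendsto_div_nhds_zero).comp (tendsto_natCast_atTop_atTop (R := ℝ))
  refine squeeze_zero' (Eventually.of_forall fun N => by positivity) ?_ h
  filter_upwards [ShiftedPrimeOmega.eventually_scale t, FA.ErdosKac.eventually_cut,
    eventually_ge_atTop 2] with N ⟨hpow, _, hK⟩ ⟨hc2, _, _⟩ hN
  obtain ⟨K, hKdef⟩ : ∃ K, K = truncLen t (loglog N) := ⟨_, rfl⟩
  rw [← hKdef] at hK hpow ⊢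
  have hN0 : (0 : ℝ) < N := Nat.cast_pos.2 (by omega)
  have h1 : 2 * (((primesUpTo (cut N)).card : ℝ) + 1) ≤ 2 ^ 2 * (cut N : ℝ) := by
    have ha : (primesUpTo (cut N)).card ≤ cut N := by
      rw [primesUpTo]
      exact (card_filter_le _ _).trans (by rw [Nat.card_Icc]; omega)
    have hb : ((primesUpTo (cut N)).card : ℝ) ≤ cut N := Nat.cast_le.2 ha
    have hc : (2 : ℝ) ≤ cut N := Nat.ofNat_le_cast.2 hc2
    linarith
  have h2 : ((cut N : ℝ)) ^ K ≤ (N : ℝ) ^ (1 / 4 : ℝ) := by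
    refine le_trans ?_ (ShiftedPrimeOmega.sqrt_sqrt_le_rpow N)
    rw [← Nat.cast_pow]
    exact Nat.cast_le.2 (hpow K le_rfl)
  have hl : 0 ≤ Real.log N := Real.log_natCast_nonneg N
  have h3 : ((K : ℝ) + 1) * ((2 : ℝ) ^ 2) ^ K ≤ Real.log N ^ 4 := by
    have h4 : ((2 : ℝ) ^ K) ^ 2 ≤ ((K : ℝ) + 1) * 2 ^ K * (2 ^ K) :=
      (sq _).trans_le (mul_le_mul_of_nonneg_right
        (le_mul_of_one_le_left (by positivity) (le_add_of_nonneg_left (Nat.cast_nonneg K)))
        (by positivity))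
    rw [← pow_mul, mul_comm 2 K, pow_mul]
    refine le_trans ?_ ((pow_le_pow_left₀ (by positivity) hK 2).trans (le_of_eq (by ring)))
    rw [mul_pow]
    exact mul_le_mul_of_nonneg_right (le_self_pow₀ (le_add_of_nonneg_left (Nat.cast_nonneg K))
      two_ne_zero) (by positivity)
  refine (div_le_div_of_nonneg_right (mul_le_mul_of_nonneg_left
    (pow_le_pow_left₀ (by positivity) h1 K) (by positivity)) hN0.le).trans ?_
  simp only [Function.comp_apply]
  rw [mul_pow, ← mul_assoc]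
  refine (div_le_div_of_nonneg_right (mul_le_mul h3 h2 (by positivity) (by positivity))
    hN0.le).trans (le_of_eq ?_)
  rw [show (4 : ℝ) = ((4 : ℕ) : ℝ) by norm_num, Real.rpow_natCast,
    div_eq_div_iff hN0.ne' (Real.rpow_pos_of_pos hN0 _).ne', mul_assoc, ← Real.rpow_add hN0]
  norm_num

/-- **The truncated sums are Gaussian.** -/
theorem tendsto_cutChar (t : ℝ) :
    Tendsto (fun N => cutChar N t) atTop (𝓝 (Complex.exp (-(t : ℂ) ^ 2 / 2))) := by
  obtain ⟨C, hC, hsums⟩ := exists_cut_sums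
  obtain ⟨Q, hQ0, hQ⟩ := exists_sum_sq_div_sq_le
  obtain ⟨θ, hθ⟩ : ∃ θ : ℕ → ℝ, θ = fun N => t / Real.sqrt (spread N) := ⟨_, rfl⟩
  have hθ0 : Tendsto θ atTop (𝓝 0) :=
    hθ ▸ tendsto_const_nhds.div_atTop (Real.tendsto_sqrt_atTop.comp tendsto_spread)
  have hsx : Tendsto (fun N : ℕ => Real.sqrt (loglog N)) atTop atTop :=
    Real.tendsto_sqrt_atTop.comp tendsto_loglog
  obtain ⟨B, hB⟩ : ∃ B : ℕ → ℝ, B = fun N => ∑ p ∈ primesUpTo (cut N), omegaPred p ^ 2 / p :=
    ⟨_, rfl⟩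
  -- the quadratic term
  have hratio : Tendsto (fun N => B N / spread N) atTop (𝓝 1) := by
    have h0 : Tendsto (fun N : ℕ => (3 * C + 3 * C * Real.log (loglog N)) /
        Real.sqrt (loglog N)) atTop (𝓝 0) := tendsto_log_div_sqrt _ _
    have h1 : Tendsto (fun N => B N / spread N - 1) atTop (𝓝 0) := by
      refine squeeze_zero_norm' ?_ h0
      filter_upwards [hsums, tendsto_loglog.eventually_ge_atTop 1] with N ⟨_, _, _, h4, _⟩ hx
      obtain ⟨x, hxdef⟩ : ∃ x, x = loglog N := ⟨_, rfl⟩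
      rw [← hxdef] at hx h4 ⊢
      have hs : 1 ≤ Real.sqrt x := Real.one_le_sqrt.2 hx
      have hl0 : 0 ≤ Real.log x := Real.log_nonneg hx
      have hsp : spread N = x ^ 3 / 3 := hxdef ▸ rfl
      have hsp0 : 0 < spread N := by rw [hsp]; positivity
      rw [Real.norm_eq_abs, div_sub_one hsp0.ne', abs_div, abs_of_pos hsp0,
        div_le_div_iff₀ hsp0 (by linarith), hB]
      refine (mul_le_mul_of_nonneg_right h4 (Real.sqrt_nonneg x)).trans ?_
      rw [hsp]
      have e : Real.sqrt x * Real.sqrt x = x := Real.mul_self_sqrt (by linarith)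
      have e2 : (Real.sqrt x + Real.log x) * Real.sqrt x ≤ x + x * Real.log x := by
        rw [add_mul, e, mul_comm (Real.log x)]
        refine add_le_add le_rfl (mul_le_mul_of_nonneg_right ?_ hl0)
        have := mul_le_mul_of_nonneg_right hs (Real.sqrt_nonneg x)
        linarith
      have := mul_le_mul_of_nonneg_left e2 (show 0 ≤ C * x ^ 2 by positivity)
      linarith
    simpa using h1.add_const 1
  have hquad : Tendsto (fun N => Complex.exp ((-(θ N ^ 2 * B N) / 2 : ℝ) : ℂ)) atTop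
      (𝓝 (Complex.exp (-(t : ℂ) ^ 2 / 2))) := by
    refine (Complex.continuous_exp.tendsto _).comp ?_
    have h1 := (Complex.continuous_ofReal.tendsto _).comp (hratio.const_mul (-(t ^ 2) / 2))
    rw [mul_one, Complex.ofReal_div, Complex.ofReal_neg, Complex.ofReal_pow,
      Complex.ofReal_ofNat] at h1
    refine h1.congr' ?_
    filter_upwards [tendsto_spread.eventually_gt_atTop 0] with N hN
    simp only [Function.comp_apply, hθ]
    congr 1
    rw [div_pow, Real.sq_sqrt hN.le]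
    field_simp
  refine hquad.congr_dist ?_
  have herr : Tendsto (fun N : ℕ => 2 * (1 / 2 : ℝ) ^ truncLen t (loglog N) +
      ((truncLen t (loglog N) : ℝ) + 1) *
        (2 * (((primesUpTo (cut N)).card : ℝ) + 1)) ^ truncLen t (loglog N) / N +
      2 * θ N ^ 2 * Q + (4 * t ^ 2 * |t| * (1 / Real.sqrt (loglog N)) *
        (B N / spread N) * 4 + 96 * t ^ 2 * C * (1 / loglog N))) atTop (𝓝 0) := by
    have hK : Tendsto (fun N => truncLen t (loglog N)) atTop atTop := tendsto_nat_ceil_atTop.comp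
      (hsx.const_mul_atTop (by positivity))
    have h1 := ((tendsto_pow_atTop_nhds_zero_of_lt_one (by norm_num : (0 : ℝ) ≤ 1 / 2)
      (by norm_num)).comp hK).const_mul (2 : ℝ)
    have h2 := ((hθ0.pow 2).const_mul 2).mul_const Q
    have h3 := ((((tendsto_const_nhds (x := (1 : ℝ))).div_atTop hsx).const_mul 
      (4 * t ^ 2 * |t|)).mul hratio).mul_const 4
    have h4 : Tendsto (fun N : ℕ => 96 * t ^ 2 * C * (1 / loglog N)) atTop (𝓝 0) := by
      simpa using ((tendsto_const_nhds (x := (1 : ℝ))).div_atTop tendsto_loglog).const_mul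
        (96 * t ^ 2 * C)
    have h5 := ((h1.add (tendsto_trunc_error t)).add h2).add (h3.add h4)
    simpa using h5
  refine squeeze_zero' (Eventually.of_forall fun N => dist_nonneg) ?_ herr
  filter_upwards [hsums, tendsto_loglog.eventually_ge_atTop (max 1 (2 * C)),
    hsx.eventually_ge_atTop (4 * |t| + 1), eventually_ge_atTop 2,
    FA.ErdosKac.eventually_cut] with N ⟨hA1, hA2, hA3, hA4, hV⟩ hx hsx hN ⟨hc2, hcN, _⟩
  obtain ⟨x, hxdef⟩ : ∃ x, x = loglog N := ⟨_, rfl⟩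
  rw [← hxdef] at hx hsx hA2 hV ⊢
  have hx1 : 1 ≤ x := le_of_max_le_left hx
  have hx2C : 2 * C ≤ x := le_of_max_le_right hx
  have hs0 : 0 < Real.sqrt x := Real.sqrt_pos.2 (by linarith)
  obtain ⟨P, hP⟩ : ∃ P, P = primesUpTo (cut N) := ⟨_, rfl⟩
  have hPsub : P ⊆ primesUpTo N := hP ▸ primesUpTo_mono hcN
  have hPp : ∀ q ∈ P, q.Prime := fun q hq => (mem_primesUpTo.1 (hP ▸ hq)).1
  obtain ⟨A, hA⟩ : ∃ A, A = ∑ p ∈ P, omegaPred p / p := ⟨_, rfl⟩
  have hA0 : 0 ≤ A := hA ▸ sum_nonneg fun p _ => div_nonneg (omegaPred_nonneg p) (Nat.cast_nonneg p)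
  have hAx : A ≤ x ^ 2 := by
    have h1 : A ≤ ∑ p ∈ primesUpTo N, omegaPred p / p := hA ▸ hP ▸ hA1
    have h2 := mul_le_mul_of_nonneg_right hx2C (show 0 ≤ x by linarith)
    linarith [(abs_le.1 hA2).2]
  have hθN : |θ N| ≤ 2 * |t| / (x * Real.sqrt x) := by
    simp only [hθ]
    rw [abs_div, abs_of_nonneg (Real.sqrt_nonneg _), sqrt_spread_eq (by linarith [hxdef]),
      ← hxdef, div_div_eq_mul_div]
    refine div_le_div_of_nonneg_right ?_ (by positivity)
    rw [mul_comm (2 : ℝ)]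
    refine mul_le_mul_of_nonneg_left ?_ (abs_nonneg t)
    rw [Real.sqrt_le_left (by norm_num)]
    norm_num
  obtain ⟨z, hz⟩ : ∃ z : ℕ → ℂ,
      z = fun p => Complex.exp ((θ N * omegaPred p : ℝ) * Complex.I) - 1 := ⟨_, rfl⟩
  have hz1 : ∀ q ∈ P, ‖1 + z q‖ ≤ 1 := fun q _ => by
    rw [hz, add_sub_cancel, Complex.norm_exp_ofReal_mul_I]
  have hzn : ∀ q, ‖z q‖ ≤ |θ N| * omegaPred q := fun q => by
    rw [hz]
    simp only
    rw [mul_comm _ Complex.I]
    refine Real.norm_exp_I_mul_ofReal_sub_one_le.trans (le_of_eq ?_)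
    rw [Real.norm_eq_abs, abs_mul, abs_of_nonneg (omegaPred_nonneg q)]
  have hK : 6 * ∑ q ∈ P, ‖z q‖ / q ≤ truncLen t x := by
    refine le_trans ?_ (Nat.le_ceil _)
    have h1 : ∑ q ∈ P, ‖z q‖ / q ≤ |θ N| * A := by
      rw [hA, mul_sum]
      exact sum_le_sum fun q _ => (div_le_div_of_nonneg_right (hzn q)
        (Nat.cast_nonneg q)).trans (le_of_eq (mul_div_assoc _ _ _))
    have h2 : |θ N| * A ≤ 2 * |t| * Real.sqrt x := by
      refine (mul_le_mul hθN hAx hA0 (by positivity)).trans (le_of_eq ?_)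
      rw [div_mul_eq_mul_div, div_eq_iff (by positivity)]
      linear_combination (-(2 * |t| * x)) * Real.mul_self_sqrt (show 0 ≤ x by linarith)
    linarith
  have hmain := norm_avg_prod_sub_exp_le hPp hz1 hK (show 0 < N by omega)
  have hsq : ∑ q ∈ P, (‖z q‖ / q) ^ 2 ≤ θ N ^ 2 * Q := by
    refine le_trans ((sum_le_sum fun q _ => ?_).trans (le_of_eq (mul_sum P _ (θ N ^ 2)).symm))
      (mul_le_mul_of_nonneg_left ((sum_le_sum_of_subset_of_nonneg hPsub
        fun p _ _ => sq_nonneg _).trans (hQ N)) (sq_nonneg _))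
    rw [← sq_abs (θ N), ← mul_pow, mul_div_assoc']
    exact pow_le_pow_left₀ (by positivity)
      (div_le_div_of_nonneg_right (hzn q) (Nat.cast_nonneg q)) 2
  obtain ⟨E, hE⟩ : ∃ E : ℂ, E = (∑ q ∈ P, z q / (q : ℂ)) - ((θ N * A : ℝ) : ℂ) * Complex.I :=
    ⟨_, rfl⟩
  obtain ⟨G, hG⟩ : ∃ G : ℂ, G = ((-(θ N ^ 2 * B N) / 2 : ℝ) : ℂ) := ⟨_, rfl⟩
  have hB0 : 0 ≤ B N := hB ▸ sum_nonneg fun p _ => by positivity
  have hGre : G.re ≤ 0 := by
    rw [hG, Complex.ofReal_re]
    have := mul_nonneg (sq_nonneg (θ N)) hB0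
    linarith
  have hEre : E.re ≤ 0 := by
    rw [hE]
    simp only [Complex.sub_re, Complex.mul_re, Complex.ofReal_re, Complex.ofReal_im, Complex.I_re,
      Complex.I_im, mul_zero, zero_mul, sub_self, sub_zero, Complex.re_sum]
    refine sum_nonpos fun q hq => ?_
    rw [Complex.div_natCast_re, hz]
    exact div_nonpos_of_nonpos_of_nonneg
      (Delange.re_sub_one_nonpos (Complex.norm_exp_ofReal_mul_I _).le) (Nat.cast_nonneg q)
  -- the Taylor remainder
  have hrem : ‖E - G‖ ≤ 2 * (|t| * (1 / Real.sqrt x) * (t ^ 2 * (B N / spread N))) * 4 +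
      48 * t ^ 2 * C * (1 / x) := by
    have hsp : spread N = x ^ 3 / 3 := hxdef ▸ rfl
    have hθ2 : θ N ^ 2 = t ^ 2 / spread N := by
      simp only [hθ]
      rw [div_pow, Real.sq_sqrt (by rw [hsp]; positivity)]
    have e : E - G = ∑ q ∈ P, (Complex.exp ((θ N * omegaPred q : ℝ) * Complex.I) - 1 -
        ((θ N * omegaPred q : ℝ) : ℂ) * Complex.I + ((θ N * omegaPred q : ℝ) : ℂ) ^ 2 / 2) /
          (q : ℂ) := by
      rw [hE, hG, hA, hB]
      simp only [← hP, Complex.ofReal_mul, Complex.ofReal_sum, Complex.ofReal_div,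
        Complex.ofReal_neg, Complex.ofReal_pow, Complex.ofReal_natCast, Complex.ofReal_ofNat,
        mul_sum, sum_mul, neg_div, sum_div, sub_neg_eq_add, ← sum_add_distrib, ← sum_sub_distrib,
        hz]
      exact sum_congr rfl fun q _ => by ring
    rw [e]
    refine (norm_sum_le _ _).trans ((sum_le_sum (g := fun q : ℕ =>
      |θ N| * (2 * x) * (θ N ^ 2 * (omegaPred q ^ 2 / q)) +
        16 * (θ N ^ 2 * ((omegaPred q - loglog q) ^ 2 / q))) fun q hq => ?_).trans ?_)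
    · rw [norm_div, Complex.norm_natCast,
        show |θ N| * (2 * x) * (θ N ^ 2 * (omegaPred q ^ 2 / q)) +
          16 * (θ N ^ 2 * ((omegaPred q - loglog q) ^ 2 / q)) =
          (|θ N| * (2 * x) * (θ N * omegaPred q) ^ 2 +
            16 * (θ N * (omegaPred q - loglog q)) ^ 2) / q by ring]
      refine div_le_div_of_nonneg_right ?_ (Nat.cast_nonneg q)
      obtain ⟨h1, h2⟩ := norm_exp_rem_le (θ N * omegaPred q)
      have hg := omegaPred_nonneg q
      rcases le_or_gt (omegaPred q) (2 * x) with hle | hgt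
      · have hb : |θ N * omegaPred q| ≤ |θ N| * (2 * x) := by
          rw [abs_mul, abs_of_nonneg hg]
          exact mul_le_mul_of_nonneg_left hle (abs_nonneg _)
        have hb1 : |θ N| * (2 * x) ≤ 1 := by
          refine (mul_le_mul_of_nonneg_right hθN (by linarith)).trans ?_
          rw [div_mul_eq_mul_div, div_le_one (by positivity)]
          nlinarith
        refine (h2 (hb.trans hb1)).trans ?_
        rw [pow_succ', sq_abs]
        have := mul_le_mul_of_nonneg_right hb (sq_nonneg (θ N * omegaPred q))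
        linarith [sq_nonneg (θ N * (omegaPred q - loglog q))]
      · obtain ⟨hqp, hqN⟩ := mem_primesUpTo.1 (hPsub hq)
        have hl : loglog q ≤ x := hxdef ▸ loglog_mono hqp.two_le hqN
        have h3 : omegaPred q ^ 2 ≤ 4 * (omegaPred q - loglog q) ^ 2 := by
          nlinarith
        have h4 := mul_le_mul_of_nonneg_left h3 (sq_nonneg (θ N))
        have h5 : 0 ≤ |θ N| * (2 * x) * (θ N * omegaPred q) ^ 2 :=
          mul_nonneg (mul_nonneg (abs_nonneg _) (by linarith)) (sq_nonneg _)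
        linarith
    rw [sum_add_distrib, ← mul_sum, ← mul_sum, ← mul_sum, ← mul_sum,
      show ∑ q ∈ P, omegaPred q ^ 2 / q = B N by rw [hB, hP]]
    have hVP : ∑ q ∈ P, (omegaPred q - loglog q) ^ 2 / q ≤ C * x ^ 2 :=
      (sum_le_sum_of_subset_of_nonneg hPsub fun p _ _ => by positivity).trans hV
    refine add_le_add ?_ ?_
    · rw [hθ2, show t ^ 2 / spread N * B N = t ^ 2 * (B N / spread N) by ring,
        show 2 * (|t| * (1 / Real.sqrt x) * (t ^ 2 * (B N / spread N))) * 4 =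
          2 * |t| / (x * Real.sqrt x) * (2 * x) * (t ^ 2 * (B N / spread N)) * 2 by
          field_simp; ring]
      have h1 := mul_le_mul_of_nonneg_right (mul_le_mul_of_nonneg_right hθN
        (show 0 ≤ 2 * x by linarith))
        (show 0 ≤ t ^ 2 * (B N / spread N) by
          rw [hsp]; positivity)
      have h2 : 0 ≤ 2 * |t| / (x * Real.sqrt x) * (2 * x) * (t ^ 2 * (B N / spread N)) := by
        rw [hsp]; positivity
      linarith
    · refine (mul_le_mul_of_nonneg_left (mul_le_mul_of_nonneg_left hVP (sq_nonneg _))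
        (by norm_num)).trans (le_of_eq ?_)
      rw [hθ2, hsp]
      field_simp
      ring
  have hexp := (Delange.norm_exp_sub_exp_le hEre hGre).trans
    (mul_le_mul_of_nonneg_left hrem zero_le_two)
  -- the character is the product
  have hchar : cutChar N t = Complex.exp ((-(θ N * A) : ℝ) * Complex.I) *
      ((∑ n ∈ Icc 1 N, ∏ q ∈ P.filter (· ∣ n), (1 + z q)) / (N : ℂ)) := by
    rw [cutChar, mul_div_assoc', mul_sum, ← hP, ← hA]
    congr 1
    refine sum_congr rfl fun n _ => ?_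
    rw [show t / Real.sqrt (spread N) = θ N by rw [hθ], hz]
    simp only [add_sub_cancel]
    rw [← Complex.exp_sum, ← Complex.exp_add]
    congr 1
    rw [← sum_mul, ← Complex.ofReal_sum, ← add_mul, ← Complex.ofReal_add, ← mul_sum]
    congr 2
    ring
  have hEq : Complex.exp ((-(θ N * A) : ℝ) * Complex.I) *
      Complex.exp (∑ q ∈ P, z q / (q : ℂ)) = Complex.exp E := by
    rw [← Complex.exp_add, hE]
    congr 1
    push_cast
    ring
  have hfirst : ‖cutChar N t - Complex.exp E‖ ≤ 2 * (1 / 2 : ℝ) ^ truncLen t x +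
      ((truncLen t x : ℝ) + 1) * (2 * (((P).card : ℝ) + 1)) ^ truncLen t x / N +
        2 * (θ N ^ 2 * Q) := by
    rw [hchar, ← hEq, ← mul_sub, norm_mul, Complex.norm_exp_ofReal_mul_I, one_mul]
    exact hmain.trans (add_le_add le_rfl (mul_le_mul_of_nonneg_left hsq zero_le_two))
  rw [dist_eq_norm, norm_sub_rev, ← hG, ← hP]
  refine (norm_sub_le_norm_sub_add_norm_sub _ (Complex.exp E) _).trans
    ((add_le_add hfirst hexp).trans (le_of_eq ?_))
  ring

/-- **The Gaussian law for whatever is close to `∑_{p ∣ n} ω (p - 1)`.** -/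
theorem tendsto_of_near_factorOmega {F : ℕ → ℝ}
    (hF : ∃ C : ℝ, 0 ≤ C ∧ ∀ᶠ N : ℕ in atTop, ∑ n ∈ Icc 1 N, |F n - factorOmega n| ≤
      C * N * (loglog N * (Real.log (loglog N) + 1))) (y : ℝ) :
    Tendsto (fun N : ℕ => (((Icc 1 N).filter fun n =>
      F n - loglog N ^ 2 / 2 ≤ y * Real.sqrt (spread N)).card : ℝ) / N) atTop
      (𝓝 ((ProbabilityTheory.gaussianReal 0 1).real (Set.Iic y))) := by
  obtain ⟨C₀, hC₀, hnear⟩ := hF
  obtain ⟨C, hC, hsums⟩ := exists_cut_sums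
  have hlim := PointEK.tendsto_gaussian (S := fun N => Icc 1 N)
    (v := fun N n => F n - loglog N ^ 2 / 2) (x := spread)
    ((eventually_ge_atTop 1).mono fun N hN => nonempty_Icc.2 hN)
    (tendsto_spread.eventually_gt_atTop 0) (fun t => ?_) y
  · refine hlim.congr fun N => ?_
    rw [Nat.card_Icc, Nat.add_sub_cancel]
  refine (tendsto_cutChar t).congr_dist ?_
  refine squeeze_zero' (Eventually.of_forall fun N => dist_nonneg) ?_
    (by simpa using (tendsto_log_div_sqrt (2 * (C₀ + 3 * C)) (2 * (C₀ + 3 * C))).const_mul |t|)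
  filter_upwards [hsums, hnear, tendsto_loglog.eventually_ge_atTop 1, eventually_ge_atTop 1,
    FA.ErdosKac.eventually_cut] with N ⟨_, hA2, hA3, _, _⟩ hdev hx hN ⟨_, hcN, _⟩
  obtain ⟨x, hxdef⟩ : ∃ x, x = loglog N := ⟨_, rfl⟩
  rw [← hxdef] at hdev hA2 hA3 hx ⊢
  obtain ⟨θ, hθ⟩ : ∃ θ, θ = t / Real.sqrt (spread N) := ⟨_, rfl⟩
  obtain ⟨A, hA⟩ : ∃ A, A = ∑ p ∈ primesUpTo (cut N), omegaPred p / p := ⟨_, rfl⟩
  obtain ⟨Z, hZ⟩ : ∃ Z, Z = x * (Real.log x + 1) := ⟨_, rfl⟩
  rw [← hZ] at hdev hA3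
  rw [← hA] at hA3
  have hN0 : (0 : ℝ) < N := Nat.cast_pos.2 hN
  have hxZ : x ≤ Z := hZ ▸ le_mul_of_one_le_right (by linarith)
    (by linarith [Real.log_nonneg hx])
  have hf : ∑ n ∈ Icc 1 N, |F n - x ^ 2 / 2 -
      ((∑ p ∈ (primesUpTo (cut N)).filter (· ∣ n), omegaPred p) - A)| ≤
      N * ((C₀ + 3 * C) * Z) := by
    refine (sum_le_sum (g := fun n => |F n - factorOmega n| +
      (∑ p ∈ (primesUpTo N \ primesUpTo (cut N)).filter (· ∣ n), omegaPred p) +
        |A - x ^ 2 / 2|) fun n hn => ?_).trans ?_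
    · have hsplit : factorOmega n =
          (∑ p ∈ (primesUpTo N \ primesUpTo (cut N)).filter (· ∣ n), omegaPred p) +
            ∑ p ∈ (primesUpTo (cut N)).filter (· ∣ n), omegaPred p := by
        rw [factorOmega, primeFactors_eq_filter (mem_Icc.1 hn).1 (mem_Icc.1 hn).2, sum_filter,
          sum_filter, sum_filter, sum_sdiff (primesUpTo_mono hcN)]
      have h0 : 0 ≤ ∑ p ∈ (primesUpTo N \ primesUpTo (cut N)).filter (· ∣ n), omegaPred p :=
        sum_nonneg fun p _ => omegaPred_nonneg p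
      obtain ⟨a1, a2⟩ := abs_le.1 (le_refl |F n - factorOmega n|)
      obtain ⟨b1, b2⟩ := abs_le.1 (le_refl |A - x ^ 2 / 2|)
      rw [abs_le]
      constructor <;> linarith
    rw [sum_add_distrib, sum_add_distrib, sum_const, Nat.card_Icc, Nat.add_sub_cancel,
      nsmul_eq_mul]
    have h1 : ∑ n ∈ Icc 1 N, ∑ p ∈ (primesUpTo N \ primesUpTo (cut N)).filter (· ∣ n),
        omegaPred p ≤ N * ((2 * C) * Z) := by
      refine (sum_filter_dvd_le fun p _ => omegaPred_nonneg p).trans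
        (mul_le_mul_of_nonneg_left ?_ hN0.le)
      rw [sum_sdiff_eq_sub (primesUpTo_mono hcN), ← hA]
      have := mul_le_mul_of_nonneg_left hxZ hC
      linarith [(abs_le.1 hA2).2, (abs_le.1 hA3).1]
    have h2 := mul_le_mul_of_nonneg_left hA3 hN0.le
    linarith
  rw [dist_eq_norm, norm_sub_rev, cutChar, PointEK.charAvg, Nat.card_Icc, Nat.add_sub_cancel,
    ← sub_div, ← sum_sub_distrib, norm_div, Complex.norm_natCast, ← hθ, ← hA]
  refine (div_le_iff₀ hN0).2 ((norm_sum_le _ _).trans ((sum_le_sum fun n _ =>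
    PointEK.norm_exp_sub_exp_le _ _).trans ?_))
  refine (le_of_eq (sum_congr rfl fun n _ => ?_)).trans ((le_of_eq (mul_sum _ _ |θ|).symm).trans
    ((mul_le_mul_of_nonneg_left hf (abs_nonneg θ)).trans ?_))
  · rw [← abs_mul]
    congr 1
    rw [hθ]
    ring
  · have hs : 0 < Real.sqrt x := Real.sqrt_pos.2 (by linarith)
    have hθ1 : |θ| ≤ 2 * |t| / (x * Real.sqrt x) := by
      rw [hθ, abs_div, abs_of_nonneg (Real.sqrt_nonneg _), sqrt_spread_eq (by linarith [hxdef]),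
        ← hxdef, div_div_eq_mul_div]
      refine div_le_div_of_nonneg_right ?_ (by positivity)
      rw [mul_comm (2 : ℝ)]
      refine mul_le_mul_of_nonneg_left ?_ (abs_nonneg t)
      rw [Real.sqrt_le_left (by norm_num)]
      norm_num
    refine (mul_le_mul_of_nonneg_right hθ1 (mul_nonneg hN0.le
      (mul_nonneg (by linarith) (by linarith)))).trans (le_of_eq ?_)
    rw [hZ]
    field_simp
    ring

/-- `log log n` against `log log N` for `√N < n ≤ N`. -/
theorem abs_sq_sub_le {N n : ℕ} (hn : n ≤ N) (hs : Nat.sqrt N < n) (h2 : 2 ≤ n)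
    (hx : 1 ≤ loglog N) : |loglog n ^ 2 - loglog N ^ 2| ≤ 2 * loglog N := by
  obtain ⟨h1, h3⟩ := ShiftedPrimeOmega.abs_loglog_sub_le hn hs h2
  rw [abs_le]
  constructor <;> nlinarith

/-- **The normal order `(log log n) ^ 2 / 2`.** -/
theorem tendsto_abnormal_of_near {F : ℕ → ℝ}
    (hF : ∃ C : ℝ, 0 ≤ C ∧ ∀ᶠ N : ℕ in atTop, ∑ n ∈ Icc 1 N, |F n - factorOmega n| ≤
      C * N * (loglog N * (Real.log (loglog N) + 1))) {ε : ℝ} (hε : 0 < ε) :
    Tendsto (fun N : ℕ => (((Icc 1 N).filter fun n =>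
      ε * loglog n ^ 2 < |F n - loglog n ^ 2 / 2|).card : ℝ) / N) atTop (𝓝 0) := by
  refine tendsto_order.2 ⟨fun δ hδ => Eventually.of_forall fun N =>
    hδ.trans_le (by positivity), fun δ hδ => ?_⟩
  obtain ⟨μ, hμdef⟩ : ∃ μ, μ = ProbabilityTheory.gaussianReal 0 1 := ⟨_, rfl⟩
  have hμ : MeasureTheory.IsProbabilityMeasure μ := hμdef ▸ inferInstance
  have hlo := (ProbabilityTheory.tendsto_cdf_atBot μ).eventually_lt_const
    (show (0 : ℝ) < δ / 4 by positivity)
  have hhi := (ProbabilityTheory.tendsto_cdf_atTop μ).eventually_const_lt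
    (show 1 - δ / 4 < (1 : ℝ) by linarith)
  obtain ⟨y, ⟨hy1, hy2⟩, hy0⟩ :=
    ((hhi.and (tendsto_neg_atTop_atBot.eventually hlo)).and (eventually_gt_atTop 0)).exists
  rw [ProbabilityTheory.cdf_eq_real, hμdef] at hy1 hy2
  have hsmall : Tendsto (fun N : ℕ => ((Nat.sqrt N + 1 : ℕ) : ℝ) / N) atTop (𝓝 0) := by
    refine squeeze_zero' (Eventually.of_forall fun N => by positivity) ?_
      ((tendsto_const_nhds (x := (2 : ℝ))).div_atTop
        (Real.tendsto_sqrt_atTop.comp tendsto_natCast_atTop_atTop))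
    filter_upwards [eventually_ge_atTop 1] with N hN
    simp only [Function.comp_apply]
    have hN0 : (0 : ℝ) < N := Nat.cast_pos.2 hN
    have h1 : (1 : ℝ) ≤ Real.sqrt N := Real.one_le_sqrt.2 (Nat.one_le_cast.2 hN)
    have h2 := mul_le_mul_of_nonneg_right (show ((Nat.sqrt N + 1 : ℕ) : ℝ) ≤ 2 * Real.sqrt N by
      push_cast
      linarith [Real.nat_sqrt_le_real_sqrt (a := N)]) (Real.sqrt_nonneg (N : ℝ))
    rw [mul_assoc, Real.mul_self_sqrt hN0.le] at h2
    rwa [div_le_div_iff₀ hN0 (by linarith)]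
  filter_upwards [(tendsto_of_near_factorOmega hF (-y)).eventually_lt_const hy2,
    (tendsto_of_near_factorOmega hF y).eventually_const_lt hy1,
    hsmall.eventually_lt_const (show (0 : ℝ) < δ / 4 by positivity),
    tendsto_loglog.eventually_ge_atTop (2 + 4 * (2 * ε + 1) / ε),
    (Real.tendsto_sqrt_atTop.comp tendsto_loglog).eventually_ge_atTop (4 * y / ε),
    eventually_ge_atTop 2] with N hlow hhigh hsq hx hsx hN
  simp only [Function.comp_apply] at hsx
  have hN0 : (0 : ℝ) < N := Nat.cast_pos.2 (by omega)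
  rw [div_lt_iff₀ hN0] at hlow hsq ⊢
  rw [lt_div_iff₀ hN0] at hhigh
  obtain ⟨x, hxdef⟩ : ∃ x, x = loglog N := ⟨_, rfl⟩
  rw [← hxdef] at hx hsx hlow hhigh
  have hq : 0 < 4 * (2 * ε + 1) / ε := by positivity
  have hbig : y * Real.sqrt (spread N) ≤ ε / 2 * x ^ 2 - (2 * ε + 1) * x := by
    have hs3 : Real.sqrt (spread N) ≤ x * Real.sqrt x := by
      rw [sqrt_spread_eq (by linarith [hxdef]), ← hxdef]
      exact div_le_self (mul_nonneg (by linarith) (Real.sqrt_nonneg _))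
        (Real.one_le_sqrt.2 (by norm_num))
    refine (mul_le_mul_of_nonneg_left hs3 hy0.le).trans ?_
    rw [div_le_iff₀ hε] at hsx
    have h1 := mul_le_mul_of_nonneg_right hsx
      (mul_nonneg (show 0 ≤ x by linarith) (Real.sqrt_nonneg x))
    rw [show Real.sqrt x * ε * (x * Real.sqrt x) = ε * x * (Real.sqrt x * Real.sqrt x) by ring,
      Real.mul_self_sqrt (by linarith)] at h1
    have h2 : ε * (2 + 4 * (2 * ε + 1) / ε) * x ≤ ε * x * x :=
      mul_le_mul_of_nonneg_right (mul_le_mul_of_nonneg_left hx hε.le) (by linarith)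
    rw [mul_add, mul_div_cancel₀ _ hε.ne'] at h2
    nlinarith
  obtain ⟨v, hv⟩ : ∃ v : ℕ → ℝ, v = fun n => F n - x ^ 2 / 2 := ⟨_, rfl⟩
  have hsub : ((Icc 1 N).filter fun n => ε * loglog n ^ 2 < |F n - loglog n ^ 2 / 2|) ⊆
      (Icc 1 (Nat.sqrt N + 1) ∪ (Icc 1 N).filter fun n => v n ≤ -y * Real.sqrt (spread N)) ∪
        (Icc 1 N).filter fun n => ¬ v n ≤ y * Real.sqrt (spread N) := fun n hn => by
    obtain ⟨hnI, hab⟩ := mem_filter.1 hn
    obtain ⟨hn1, hnN⟩ := mem_Icc.1 hnI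
    rw [mem_union, mem_union, mem_Icc (a := 1) (b := Nat.sqrt N + 1), mem_filter, mem_filter, hv]
    by_cases hsm : n ≤ Nat.sqrt N + 1
    · exact Or.inl (Or.inl ⟨hn1, hsm⟩)
    have h1 := abs_le.1 (abs_sq_sub_le hnN (by omega) (by omega) (hxdef ▸ by linarith))
    rw [← hxdef] at h1
    have h2 := mul_le_mul_of_nonneg_left h1.1 hε.le
    have hx0 : 0 ≤ x := by linarith
    have h3 : 0 ≤ ε / 2 * x ^ 2 := by positivity
    rcases lt_abs.1 hab with h | h
    · exact Or.inr ⟨hnI, by linarith⟩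
    · exact Or.inl (Or.inr ⟨hnI, by linarith⟩)
  refine lt_of_le_of_lt ((Nat.cast_le.2 ((card_le_card hsub).trans ((card_union_le _ _).trans
    (add_le_add (card_union_le _ _) le_rfl)))).trans_eq (Nat.cast_add _ _)) ?_
  rw [Nat.cast_add, Nat.card_Icc, Nat.add_sub_cancel (n := Nat.sqrt N + 1)]
  have hcompl : ((((Icc 1 N).filter fun n => v n ≤ y * Real.sqrt (spread N)).card : ℕ) : ℝ) +
      ((Icc 1 N).filter fun n => ¬ v n ≤ y * Real.sqrt (spread N)).card = N := by
    rw [← Nat.cast_add, card_filter_add_card_filter_not, Nat.card_Icc, Nat.add_sub_cancel]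
  subst hv
  have hpos : 0 < δ * N := mul_pos hδ hN0
  linarith

end FA.OmegaPhi

end
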