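import Fermat.Agent.OmegaPhi.PrimeSums
import Mathlib.NumberTheory.ArithmeticFunction.Misc
import Mathlib.NumberTheory.Harmonic.Bounds
import Mathlib.Analysis.PSeries

/-!
# The prime factors of `φ n` against `∑_{p ∣ n} ω (p - 1)`

On average over `n ≤ N` both `ω (φ n)` and `Ω (φ n)` differ from `∑_{p ∣ n} ω (p - 1)` by
`O (log log N · log log log N)`: the primes `q ≤ (log N) ^ 2` are few in each `p - 1`, a larger `q`
seldom divides two of them, and prime powers add `O (log log N)`.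
-/

set_option autoImplicit false

noncomputable section

namespace FA.OmegaPhi

open Finset Filter
open FA.ErdosKac (primesUpTo mem_primesUpTo recipSum loglog tendsto_loglog)
open FA.ShiftedPrimeOmega (share primeClassCount recipLogSum)
open scoped Topology ArithmeticFunction.Omega

/-- `∑_{p ∣ n} ω (p - 1)`. -/
def factorOmega (n : ℕ) : ℝ := ∑ p ∈ n.primeFactors, omegaPred p

/-- The prime divisors of the `p - 1`, `p ∣ n`. -/
def predFactors (n : ℕ) : Finset ℕ := n.primeFactors.biUnion fun p => (p - 1).primeFactors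

/-- The `q ^ k ≤ m` with `k ≥ 2`, as pairs. -/
def powerPairs (m : ℕ) : Finset (ℕ × ℕ) :=
  ((primesUpTo m) ×ˢ Icc 2 (Nat.log 2 m)).filter fun r => r.1 ^ r.2 ≤ m

theorem primeFactors_eq_filter {N n : ℕ} (hn : 1 ≤ n) (hnN : n ≤ N) :
    n.primeFactors = (primesUpTo N).filter (· ∣ n) := by
  ext q
  rw [Nat.mem_primeFactors, mem_filter, mem_primesUpTo]
  exact ⟨fun h => ⟨⟨h.1, (Nat.le_of_dvd hn h.2.1).trans hnN⟩, h.2.1⟩,
    fun h => ⟨h.1.1, h.2, by omega⟩⟩

theorem sum_filter_dvd_le {N : ℕ} {P : Finset ℕ} {h : ℕ → ℝ} (hh : ∀ p ∈ P, 0 ≤ h p) :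
    ∑ n ∈ Icc 1 N, ∑ p ∈ P.filter (· ∣ n), h p ≤ N * ∑ p ∈ P, h p / p := by
  simp only [sum_filter]
  rw [sum_comm, mul_sum]
  refine sum_le_sum fun p hp => ?_
  rw [← sum_filter, sum_const, nsmul_eq_mul, show Icc 1 N = Ioc 0 N from rfl,
    Nat.Ioc_filter_dvd_card_eq_div]
  exact (mul_le_mul_of_nonneg_right Nat.cast_div_le (hh p hp)).trans (le_of_eq (by ring))

/-- **The average of a sum over the prime divisors.** -/
theorem sum_primeFactors_le {N : ℕ} {h : ℕ → ℝ} (hh : ∀ p, 0 ≤ h p) :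
    ∑ n ∈ Icc 1 N, ∑ p ∈ n.primeFactors, h p ≤ N * ∑ p ∈ primesUpTo N, h p / p :=
  le_of_eq_of_le (sum_congr rfl fun n hn => by
    rw [primeFactors_eq_filter (mem_Icc.1 hn).1 (mem_Icc.1 hn).2])
    (sum_filter_dvd_le fun p _ => hh p)

theorem totient_eq_prod {n : ℕ} (hn : n ≠ 0) :
    n.totient = ∏ p ∈ n.primeFactors, p ^ (n.factorization p - 1) * (p - 1) := by
  rw [Nat.totient_eq_prod_factorization hn, Finsupp.prod, Nat.support_factorization]

theorem predFactors_subset {n : ℕ} (hn : n ≠ 0) :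
    predFactors n ⊆ n.totient.primeFactors := fun q hq => by
  obtain ⟨p, hp, hq'⟩ := mem_biUnion.1 hq
  obtain ⟨hqp, hqd, -⟩ := Nat.mem_primeFactors.1 hq'
  refine Nat.mem_primeFactors.2
    ⟨hqp, ?_, (Nat.totient_pos.2 (Nat.pos_of_ne_zero hn)).ne'⟩
  rw [totient_eq_prod hn]
  exact (hqd.trans (dvd_mul_left _ _)).trans
    (dvd_prod_of_mem (fun p => p ^ (n.factorization p - 1) * (p - 1)) hp)

theorem primeFactors_totient_subset {n : ℕ} (hn : n ≠ 0) :
    n.totient.primeFactors ⊆ predFactors n ∪ n.primeFactors := fun q hq => by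
  obtain ⟨hqp, hqd, -⟩ := Nat.mem_primeFactors.1 hq
  rw [totient_eq_prod hn] at hqd
  obtain ⟨p, hp, hd⟩ := (hqp.prime.dvd_finsetProd_iff _).1 hqd
  have hpp := Nat.prime_of_mem_primeFactors hp
  rcases (Nat.Prime.dvd_mul hqp).1 hd with h | h
  · have h1 := (Nat.prime_dvd_prime_iff_eq hqp hpp).1 (hqp.dvd_of_dvd_pow h)
    exact mem_union_right _ (h1 ▸ hp)
  · exact mem_union_left _ (mem_biUnion.2 ⟨p, hp, Nat.mem_primeFactors.2
      ⟨hqp, h, by have := hpp.two_le; omega⟩⟩)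

theorem cardFactors_prod {ι : Type*} (s : Finset ι) {f : ι → ℕ} (hf : ∀ i ∈ s, f i ≠ 0) :
    Ω (∏ i ∈ s, f i) = ∑ i ∈ s, Ω (f i) := by
  classical
  induction s using Finset.induction_on with
  | empty => simp
  | insert a s ha ih =>
    simp only [mem_insert, forall_eq_or_imp] at hf
    rw [prod_insert ha, sum_insert ha,
      ArithmeticFunction.cardFactors_mul hf.1 (prod_ne_zero_iff.2 hf.2), ih hf.2]

theorem cast_cardFactors_sub {n : ℕ} :
    (Ω n : ℝ) - (n.primeFactors.card : ℝ) =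
      ∑ q ∈ n.primeFactors, ((n.factorization q : ℝ) - 1) := by
  rw [sum_sub_distrib, sum_const, nsmul_one, ArithmeticFunction.cardFactors_eq_sum_factorization,
    Finsupp.sum, Nat.support_factorization, Nat.cast_sum]

theorem one_le_factorization {n q : ℕ} (hq : q ∈ n.primeFactors) : 1 ≤ n.factorization q := by
  rw [← Nat.support_factorization, Finsupp.mem_support_iff] at hq
  omega

theorem card_le_cardFactors (n : ℕ) : (n.primeFactors.card : ℝ) ≤ (Ω n : ℝ) := by
  rw [← sub_nonneg, cast_cardFactors_sub]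
  exact sum_nonneg fun q hq => sub_nonneg.2 (Nat.one_le_cast.2 (one_le_factorization hq))

/-- `Ω (φ n)` exactly. -/
theorem cardFactors_totient {n : ℕ} (hn : n ≠ 0) :
    (Ω n.totient : ℝ) = ((Ω n : ℝ) - n.primeFactors.card) +
      ∑ p ∈ n.primeFactors, (Ω (p - 1) : ℝ) := by
  have h0 : ∀ p ∈ n.primeFactors, p ^ (n.factorization p - 1) * (p - 1) ≠ 0 := fun p hp => by
    have := (Nat.prime_of_mem_primeFactors hp).two_le
    exact Nat.mul_ne_zero (pow_ne_zero _ (by omega)) (by omega)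
  rw [totient_eq_prod hn, cardFactors_prod _ h0, cast_cardFactors_sub, Nat.cast_sum,
    ← sum_add_distrib]
  refine sum_congr rfl fun p hp => ?_
  have hpp := Nat.prime_of_mem_primeFactors hp
  rw [ArithmeticFunction.cardFactors_mul (pow_ne_zero _ hpp.ne_zero)
      (by have := hpp.two_le; omega), ArithmeticFunction.cardFactors_apply_prime_pow hpp,
    Nat.cast_add, Nat.cast_sub (one_le_factorization hp), Nat.cast_one]

/-- The repeated prime factors are among the prime powers dividing. -/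
theorem cardFactors_sub_le {x m : ℕ} (hx : 1 ≤ x) (hxm : x ≤ m) :
    (Ω x : ℝ) - x.primeFactors.card ≤ ((powerPairs m).filter fun r => r.1 ^ r.2 ∣ x).card := by
  rw [cast_cardFactors_sub]
  refine le_of_eq_of_le (sum_congr rfl fun q hq => ?_) (le_of_eq_of_le (Nat.cast_sum _ _).symm
    (Nat.cast_le.2 ((card_sigma _ (fun q => Icc 2 (x.factorization q))).symm.trans_le
      (card_le_card_of_injOn (fun r : Σ _ : ℕ, ℕ => (r.1, r.2)) (fun r hr => ?_)
        fun r _ s _ h => ?_))))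
  · rw [Nat.card_Icc, show x.factorization q + 1 - 2 = x.factorization q - 1 by omega,
      Nat.cast_sub (one_le_factorization hq), Nat.cast_one]
  · obtain ⟨hq, hk⟩ := mem_sigma.1 hr
    rw [mem_Icc] at hk
    have hqp := Nat.prime_of_mem_primeFactors hq
    have hd : r.1 ^ r.2 ∣ x := (hqp.pow_dvd_iff_le_factorization (by omega)).2 hk.2
    have hle : r.1 ^ r.2 ≤ m := (Nat.le_of_dvd hx hd).trans hxm
    simp only [coe_filter, Set.mem_ofPred_eq, powerPairs, mem_filter, mem_product, mem_Icc,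
      mem_primesUpTo]
    refine ⟨⟨⟨⟨hqp, (Nat.le_self_pow (by omega) _).trans hle⟩, hk.1,
      Nat.le_log_of_pow_le one_lt_two ((Nat.pow_le_pow_left hqp.two_le _).trans hle)⟩, hle⟩, hd⟩
  · obtain ⟨a, b⟩ := r
    obtain ⟨a', b'⟩ := s
    simp only [Prod.mk.injEq] at h
    rw [h.1, h.2]

theorem sum_pow_inv_le {q : ℕ} (hq : 2 ≤ q) (K : ℕ) :
    ∑ k ∈ Icc 2 K, ((q : ℝ)⁻¹) ^ k ≤ 2 * ((q : ℝ)⁻¹) ^ 2 := by
  have h2 : (q : ℝ)⁻¹ ≤ 1 / 2 := by
    rw [one_div]
    exact inv_anti₀ two_pos (Nat.ofNat_le_cast.2 hq)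
  rw [← Ico_succ_right_eq_Icc, sum_Ico_eq_sum_range]
  simp only [pow_add, ← mul_sum]
  rw [mul_comm (2 : ℝ)]
  refine mul_le_mul_of_nonneg_left ?_ (sq_nonneg _)
  exact (sum_le_sum fun i _ => pow_le_pow_left₀ (by positivity) h2 i).trans
    (sum_geometric_two_le _)

theorem sum_powerPairs_le (m : ℕ) : ∑ r ∈ powerPairs m, ((r.1 : ℝ)⁻¹) ^ r.2 ≤ 2 := by
  refine (sum_le_sum_of_subset_of_nonneg (filter_subset _ _) fun _ _ _ => by positivity).trans ?_
  rw [sum_product]
  refine (sum_le_sum fun q hq => sum_pow_inv_le (mem_primesUpTo.1 hq).1.two_le _).trans ?_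
  rw [← mul_sum]
  have := FA.ErdosKac.sum_inv_sq_le (primesUpTo m) fun q hq => (mem_primesUpTo.1 hq).1
  linarith

/-- The repeated prime factors of `n` are few on average. -/
theorem sum_cardFactors_sub_le (N : ℕ) :
    ∑ n ∈ Icc 1 N, ((Ω n : ℝ) - n.primeFactors.card) ≤ 2 * N := by
  refine (sum_le_sum fun n hn => cardFactors_sub_le (mem_Icc.1 hn).1 (mem_Icc.1 hn).2).trans ?_
  simp only [card_filter, Nat.cast_sum, Nat.cast_ite, Nat.cast_one, Nat.cast_zero]
  rw [sum_comm]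
  refine (sum_le_sum (g := fun r : ℕ × ℕ => (N : ℝ) * ((r.1 : ℝ)⁻¹) ^ r.2) fun r _ => ?_).trans ?_
  · rw [sum_boole, show Icc 1 N = Ioc 0 N from rfl, Nat.Ioc_filter_dvd_card_eq_div]
    refine Nat.cast_div_le.trans (le_of_eq ?_)
    rw [inv_pow, Nat.cast_pow, div_eq_mul_inv]
  · rw [← mul_sum, mul_comm (2 : ℝ)]
    exact mul_le_mul_of_nonneg_left (sum_powerPairs_le N) (Nat.cast_nonneg N)

theorem card_pred_dvd_le {m d : ℕ} (hd : 0 < d) :
    (((primesUpTo m).filter fun p => d ∣ p - 1).card : ℝ) ≤ (m : ℝ) / d := by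
  refine le_trans (Nat.cast_le.2 ?_) Nat.cast_div_le
  refine (card_le_card_of_injOn (t := Icc 1 (m / d)) (fun p => (p - 1) / d) (fun p hp => ?_)
    fun p hp p' hp' h => ?_).trans (by simp)
  · simp only [coe_filter, Set.mem_ofPred_eq, mem_primesUpTo] at hp
    have := hp.1.1.two_le
    rw [mem_coe, mem_Icc]
    exact ⟨Nat.div_pos (Nat.le_of_dvd (by omega) hp.2) hd, Nat.div_le_div_right (by omega)⟩
  · simp only [coe_filter, Set.mem_ofPred_eq, mem_primesUpTo] at hp hp'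
    have e1 := Nat.div_mul_cancel hp.2
    have e2 := Nat.div_mul_cancel hp'.2
    simp only at h
    rw [h, e2] at e1
    have := hp.1.1.two_le
    have := hp'.1.1.two_le
    omega

/-- **Repeated prime factors of `p - 1`.** -/
theorem exists_sum_powers_le : ∃ C : ℝ, 0 ≤ C ∧ ∀ m : ℕ, 2 ≤ m →
    ∑ p ∈ primesUpTo m, ((Ω (p - 1) : ℝ) - omegaPred p) ≤ C * ((m : ℝ) / Real.log m) := by
  obtain ⟨B, C, hC, hBV⟩ := ShiftedPrimeOmega.exists_bv_count 6
  obtain ⟨Cπ, hCπ, hπ⟩ := exists_card_le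
  obtain ⟨C', hC', hlev⟩ := exists_level_pred
  refine exists_bound_of_eventually (C := 4 * (Cπ + C') + C + 14) (fun m hm => div_log_pos hm) ?_
  filter_upwards [hlev, eventually_ge_atTop (2 ^ 16),
    BombieriVinogradov.eventually_log_pow_le B (show (0 : ℝ) < 1 / 4 by norm_num),
    BombieriVinogradov.eventually_log_pow_le 3 (show (0 : ℝ) < 1 / 8 by norm_num),
    BombieriVinogradov.eventually_log_ge 3] with m ⟨_, h0, _⟩ hm hlB hl3 hL3
  obtain ⟨L, hL⟩ : ∃ L, L = Real.log m := ⟨_, rfl⟩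
  rw [← hL] at h0 hlB hl3 hL3 ⊢
  have hm3 : 3 ≤ m := le_trans (by norm_num) hm
  have hm0 : (0 : ℝ) < m := Nat.cast_pos.2 (by omega)
  obtain ⟨u, hu⟩ : ∃ u, u = (m : ℝ) / L := ⟨_, rfl⟩
  have hu0 : 0 ≤ u := hu ▸ div_nonneg hm0.le (by linarith)
  have h6 : (m : ℝ) / L ^ 6 ≤ u :=
    hu ▸ div_le_div_of_nonneg_left hm0.le (by linarith) (le_self_pow₀ (by linarith) (by norm_num))
  rw [← hu]
  obtain ⟨z, hz⟩ : ∃ z, z = Nat.sqrt (Nat.sqrt m) := ⟨_, rfl⟩
  obtain ⟨w, hw⟩ : ∃ w, w = Nat.sqrt z := ⟨_, rfl⟩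
  have hw2z : w ^ 2 ≤ z := hw ▸ Nat.sqrt_le' z
  have hmw : m < (w + 1) ^ 8 := by
    calc m < (z + 1) ^ 4 := hz ▸ ShiftedPrimeOmega.lt_sqrt_sqrt_succ_pow_four m
      _ ≤ ((w + 1) ^ 2) ^ 4 := Nat.pow_le_pow_left (hw ▸ Nat.lt_succ_sqrt' z) 4
      _ = (w + 1) ^ 8 := by ring
  have hw1 : 1 ≤ w := by
    by_contra hc
    have : (w + 1) ^ 8 = 1 := by rw [show w = 0 by omega]; norm_num
    omega
  have hlw : L ^ 3 ≤ (w : ℝ) + 1 := by
    refine hl3.trans ?_
    rw [show (1 : ℝ) / 8 = ((8 : ℕ) : ℝ)⁻¹ by norm_num]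
    refine le_of_le_of_eq (Real.rpow_le_rpow hm0.le
      (show (m : ℝ) ≤ ((w : ℝ) + 1) ^ 8 by exact_mod_cast hmw.le) (by positivity)) ?_
    exact Real.pow_rpow_inv_natCast (by positivity) (by norm_num)
  refine (sum_le_sum (g := fun p => (((powerPairs m).filter fun r => r.1 ^ r.2 ∣ p - 1).card : ℝ))
    fun p hp => ?_).trans ?_
  · obtain ⟨hpp, hpm⟩ := mem_primesUpTo.1 hp
    have := hpp.two_le
    rw [omegaPred]
    exact cardFactors_sub_le (by omega) (by omega)
  simp only [card_filter, Nat.cast_sum, Nat.cast_ite, Nat.cast_one, Nat.cast_zero]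
  rw [sum_comm, ← sum_filter_add_sum_filter_not (powerPairs m) (fun r => r.1 ^ r.2 ≤ z)]
  simp only [sum_boole]
  have hpair : ∀ r ∈ powerPairs m, r.1.Prime ∧ 2 ≤ r.2 ∧ r.2 ≤ Nat.log 2 m := fun r hr => by
    simp only [powerPairs, mem_filter, mem_product, mem_primesUpTo, mem_Icc] at hr
    exact ⟨hr.1.1.1, hr.1.2.1, hr.1.2.2⟩
  have hQ : ((z : ℕ) : ℝ) ≤ Real.sqrt m / L ^ B := by
    rw [le_div_iff₀ (pow_pos (by linarith) B)]
    refine (mul_le_mul (hz ▸ ShiftedPrimeOmega.sqrt_sqrt_le_rpow m) hlB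
      (pow_nonneg (by linarith) B) (Real.rpow_nonneg hm0.le _)).trans (le_of_eq ?_)
    rw [← Real.rpow_add hm0, Real.sqrt_eq_rpow]
    norm_num
  have hsmall : ∑ r ∈ (powerPairs m).filter (fun r => r.1 ^ r.2 ≤ z),
      (((primesUpTo m).filter fun p => r.1 ^ r.2 ∣ p - 1).card : ℝ) ≤
      (4 * (Cπ + C') + C) * u := by
    obtain ⟨T, hT⟩ : ∃ T, T = (powerPairs m).filter fun r => r.1 ^ r.2 ≤ z := ⟨_, rfl⟩
    rw [← hT]
    have hX : recipLogSum m ≤ (Cπ + C') * u := by
      have h1 := hπ m (by omega)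
      rw [← hL, ← hu] at h1
      have h2 := mul_le_mul_of_nonneg_left h6 hC'.le
      linarith [(abs_le.1 h0).1]
    have hX0 : 0 ≤ recipLogSum m := sum_nonneg fun n _ => inv_nonneg.2 (Real.log_natCast_nonneg n)
    refine (sum_le_sum (g := fun r : ℕ × ℕ =>
      |(primeClassCount m (r.1 ^ r.2) 1 : ℝ) - recipLogSum m / (r.1 ^ r.2).totient| +
        recipLogSum m / (r.1 ^ r.2).totient) fun r hr => ?_).trans ?_
    · have e : ((primesUpTo m).filter fun p => r.1 ^ r.2 ∣ p - 1).card =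
          primeClassCount m (r.1 ^ r.2) 1 := by
        rw [primeClassCount, primesUpTo, filter_filter]
        refine congrArg card (filter_congr fun p hp => and_congr_right fun _ => ?_)
        have := (mem_Icc.1 hp).1
        rw [← neg_sub, dvd_neg, show (p : ℤ) - 1 = ((p - 1 : ℕ) : ℤ) by omega,
          Int.natCast_dvd_natCast]
      rw [e]
      linarith [le_abs_self ((primeClassCount m (r.1 ^ r.2) 1 : ℝ) -
        recipLogSum m / (r.1 ^ r.2).totient)]
    rw [sum_add_distrib]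
    have hbv : ∑ r ∈ T,
        |(primeClassCount m (r.1 ^ r.2) 1 : ℝ) - recipLogSum m / (r.1 ^ r.2).totient| ≤
        C * u := by
      refine le_trans (le_trans (le_of_eq ?_) (sum_le_sum_of_subset_of_nonneg
        (s := T.image fun r => r.1 ^ r.2) (fun d hd => ?_) fun d _ _ => abs_nonneg _))
        ((hL ▸ hBV m hm3 z (hL ▸ hQ) 1).trans (mul_le_mul_of_nonneg_left h6 hC.le))
      · rw [sum_image fun r hr s hs h => by
          rw [hT] at hr hs
          have hr' := hpair r (mem_filter.1 hr).1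
          have hs' := hpair s (mem_filter.1 hs).1
          have := Nat.Prime.pow_inj' hr'.1 hs'.1 (by omega) (by omega) h
          exact Prod.ext this.1 this.2]
      · obtain ⟨r, hr, rfl⟩ := mem_image.1 hd
        rw [hT, mem_filter] at hr
        rw [mem_filter, mem_Icc]
        exact ⟨⟨Nat.one_le_pow _ _ (hpair r hr.1).1.pos, hr.2⟩, Int.one_gcd⟩
    have hmain : ∑ r ∈ T, recipLogSum m / ((r.1 ^ r.2).totient : ℕ) ≤ 4 * recipLogSum m := by
      refine (sum_le_sum (g := fun r : ℕ × ℕ => recipLogSum m * (2 * ((r.1 : ℝ)⁻¹) ^ r.2))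
        fun r hr => ?_).trans ?_
      · rw [hT, mem_filter] at hr
        obtain ⟨hp, h2, -⟩ := hpair r hr.1
        rw [div_eq_mul_inv]
        refine mul_le_mul_of_nonneg_left ?_ hX0
        have hq : (2 : ℝ) ≤ r.1 := Nat.ofNat_le_cast.2 hp.two_le
        rw [Nat.totient_prime_pow hp (by omega), Nat.cast_mul, Nat.cast_pow,
          Nat.cast_sub hp.one_le, Nat.cast_one, mul_inv]
        refine le_trans (mul_le_mul_of_nonneg_left (ShiftedPrimeOmega.share_bounds hp.two_le).2.2.1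
          (by positivity)) (le_of_eq ?_)
        obtain ⟨j, hj⟩ : ∃ j, r.2 = j + 1 := ⟨r.2 - 1, by omega⟩
        rw [hj, Nat.add_sub_cancel, inv_pow, pow_succ, mul_inv]
        ring
      · rw [← mul_sum, ← mul_sum, mul_comm (4 : ℝ)]
        refine mul_le_mul_of_nonneg_left ?_ hX0
        have := (sum_le_sum_of_subset_of_nonneg (hT ▸ filter_subset _ _ : T ⊆ powerPairs m)
          (f := fun r : ℕ × ℕ => ((r.1 : ℝ)⁻¹) ^ r.2) fun _ _ _ => by positivity).trans
            (sum_powerPairs_le m)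
        linarith
    linarith
  have hlarge : ∑ r ∈ (powerPairs m).filter (fun r => ¬ r.1 ^ r.2 ≤ z),
      (((primesUpTo m).filter fun p => r.1 ^ r.2 ∣ p - 1).card : ℝ) ≤ 14 * u := by
    have hlog2 : ((Nat.log 2 m : ℕ) : ℝ) ≤ 2 * L := by
      have h1 : ((2 : ℝ) ^ Nat.log 2 m) ≤ m := by exact_mod_cast Nat.pow_log_le_self 2 (by omega)
      have h2 := Real.log_le_log (by positivity) h1
      rw [Real.log_pow, ← hL] at h2
      have h3 := mul_le_mul_of_nonneg_left Real.log_two_gt_d9.le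
        (Nat.cast_nonneg (α := ℝ) (Nat.log 2 m))
      linarith
    refine (sum_le_sum (g := fun r : ℕ × ℕ => (m : ℝ) * (if r.1 ≤ w then (z : ℝ)⁻¹
      else ((r.1 : ℝ)⁻¹) ^ r.2)) fun r hr => ?_).trans ?_
    · rw [mem_filter, not_le] at hr
      refine (card_pred_dvd_le (pow_pos (hpair r hr.1).1.pos _)).trans ?_
      rw [div_eq_mul_inv]
      refine mul_le_mul_of_nonneg_left ?_ hm0.le
      split_ifs
      · exact inv_anti₀ (Nat.cast_pos.2 (hw1.trans ((Nat.le_self_pow two_ne_zero w).trans hw2z)))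
          (Nat.cast_le.2 hr.2.le)
      · rw [Nat.cast_pow, inv_pow]
    rw [← mul_sum]
    refine le_trans (mul_le_mul_of_nonneg_left
      (sum_le_sum_of_subset_of_nonneg
        (t := (primesUpTo m) ×ˢ Icc 2 (Nat.log 2 m))
        ((filter_subset _ _).trans (filter_subset _ _))
        fun r _ _ => by split_ifs <;> positivity) hm0.le) ?_
    rw [sum_product]
    refine le_trans (mul_le_mul_of_nonneg_left (sum_le_sum (g := fun q : ℕ => if q ≤ w
      then 2 * L * (z : ℝ)⁻¹ else 2 * (((q : ℝ) ^ 2)⁻¹)) fun q hq => ?_) hm0.le) ?_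
    · split_ifs
      · rw [sum_const, nsmul_eq_mul]
        refine mul_le_mul_of_nonneg_right (le_trans (Nat.cast_le.2 ?_) hlog2) (by positivity)
        rw [Nat.card_Icc]
        omega
      · refine (sum_pow_inv_le (mem_primesUpTo.1 hq).1.two_le _).trans (le_of_eq ?_)
        rw [inv_pow]
    rw [sum_ite, sum_const, nsmul_eq_mul, ← mul_sum]
    have h1 : ((((primesUpTo m).filter fun q => q ≤ w).card : ℕ) : ℝ) ≤ w := by
      refine Nat.cast_le.2 ((card_le_card (t := Icc 1 w) fun q hq => ?_).trans (by simp))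
      rw [mem_filter, mem_primesUpTo] at hq
      exact mem_Icc.2 ⟨hq.1.1.one_le, hq.2⟩
    have h2 : ∑ q ∈ (primesUpTo m).filter (fun q => ¬ q ≤ w), ((q : ℝ) ^ 2)⁻¹ ≤
        2 / ((w : ℝ) + 1) := by
      refine (sum_le_sum_of_subset_of_nonneg (t := Ioo w (m + 1)) (fun q hq => ?_)
        fun _ _ _ => by positivity).trans (sum_Ioo_inv_sq_le w (m + 1))
      rw [mem_filter, mem_primesUpTo, not_le] at hq
      exact mem_Ioo.2 ⟨hq.2, Nat.lt_succ_of_le hq.1.2⟩
    have hwr : (1 : ℝ) ≤ w := Nat.one_le_cast.2 hw1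
    have h3 : (w : ℝ) * (z : ℝ)⁻¹ ≤ (w : ℝ)⁻¹ := by
      have hz2 : (w : ℝ) ^ 2 ≤ z := by exact_mod_cast hw2z
      refine (mul_le_mul_of_nonneg_left (inv_anti₀ (by positivity) hz2) (by linarith)).trans
        (le_of_eq ?_)
      field_simp
    have h4 : (w : ℝ)⁻¹ ≤ 2 / ((w : ℝ) + 1) := by
      rw [inv_eq_one_div, div_le_div_iff₀ (by linarith) (by linarith)]
      linarith
    have h5 : (w : ℝ) * (2 * L * (z : ℝ)⁻¹) + 2 * (2 / ((w : ℝ) + 1)) ≤
        (4 * L + 4) / ((w : ℝ) + 1) := by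
      rw [show (4 * L + 4) / ((w : ℝ) + 1) =
        2 * L * (2 / ((w : ℝ) + 1)) + 2 * (2 / ((w : ℝ) + 1)) by ring]
      have := mul_le_mul_of_nonneg_left (h3.trans h4) (show 0 ≤ 2 * L by linarith)
      linarith
    have h7 : (4 * L + 4) / ((w : ℝ) + 1) ≤ 14 / L := by
      rw [div_le_div_iff₀ (by linarith) (by linarith)]
      have : 9 ≤ L * L := by nlinarith
      nlinarith
    refine le_trans (mul_le_mul_of_nonneg_left ((add_le_add
      (mul_le_mul_of_nonneg_right h1 (mul_nonneg (by linarith) (inv_nonneg.2 (Nat.cast_nonneg _))))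
      (mul_le_mul_of_nonneg_left h2 zero_le_two)).trans (h5.trans h7)) hm0.le) (le_of_eq ?_)
    rw [hu]
    ring
  linarith

/-- The small primes in the `p - 1`. -/
theorem exists_sum_small_le : ∃ C : ℝ, 0 ≤ C ∧ ∀ m Y : ℕ, 2 ≤ m → 3 ≤ Y →
    ∑ p ∈ primesUpTo m, ((((p - 1).primeFactors.filter fun q => q ≤ Y).card : ℕ) : ℝ) ≤
      C * (1 + |loglog Y|) * ((m : ℝ) / Real.log m) := by
  obtain ⟨C, hC, hdev⟩ := exists_sum_dev
  obtain ⟨C', hC', hlev⟩ := exists_level_pred
  obtain ⟨Cπ, hCπ, hπ⟩ := exists_card_le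
  obtain ⟨C₁, hC₁⟩ := FA.ErdosKac.exists_abs_recipSum_sub_le
  have hC₁0 : 0 ≤ C₁ := (abs_nonneg _).trans (hC₁ 2 le_rfl)
  obtain ⟨m₀, hm₀⟩ := eventually_atTop.1 (hlev.and (BombieriVinogradov.eventually_log_ge 1))
  obtain ⟨K, hK⟩ : ∃ K, K = C * (4 + |loglog m₀|) + (C₁ + 4) * (Cπ + 2 * C') := ⟨_, rfl⟩
  refine ⟨K, hK ▸ by positivity, fun m Y hm hY => ?_⟩
  obtain ⟨u, hu⟩ : ∃ u, u = (m : ℝ) / Real.log m := ⟨_, rfl⟩
  have hu0 : 0 ≤ u := hu ▸ (div_log_pos hm).le
  have hY0 : 0 ≤ |loglog Y| := abs_nonneg _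
  have hLY : |loglog Y| ≥ loglog Y := le_abs_self _
  rw [← hu]
  by_cases hcase : m₀ ≤ m ∧ Y ≤ Nat.sqrt (Nat.sqrt m)
  · obtain ⟨⟨hl, h0, -⟩, hL1⟩ := hm₀ m hcase.1
    have h1 := hl Y 1 (by rw [pow_one]; exact hcase.2)
    obtain ⟨E, hE⟩ : ∃ E, E = C' * ((m : ℝ) / Real.log m ^ 6) := ⟨_, rfl⟩
    rw [← hE] at h0 h1
    have hEu : E ≤ C' * u := hE ▸ hu ▸ mul_le_mul_of_nonneg_left
      (div_le_div_of_nonneg_left (Nat.cast_nonneg m) (by linarith)
        (le_self_pow₀ hL1 (by norm_num))) hC'.le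
    have hE0 : 0 ≤ E := (abs_nonneg _).trans h0
    obtain ⟨σ, hσ⟩ : ∃ σ, σ = ∑ q ∈ primesUpTo Y, share q := ⟨_, rfl⟩
    rw [powersetCard_one, sum_map] at h1
    simp only [Function.Embedding.coeFn_mk, mem_singleton, forall_eq, prod_singleton] at h1
    have hsum : ∑ p ∈ primesUpTo m, ((((p - 1).primeFactors.filter fun q => q ≤ Y).card : ℕ) : ℝ) ≤
        σ * recipLogSum m + E := by
      refine le_trans (le_of_eq (sum_congr rfl fun p hp => ?_)) ((sum_comm
        (s := primesUpTo m) (t := primesUpTo Y)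
        (f := fun p q => if q ∣ p - 1 then (1 : ℝ) else 0)).trans_le ?_)
      · rw [sum_boole, Nat.cast_inj]
        congr 1
        have hp1 : p - 1 ≠ 0 := by
          have := (mem_primesUpTo.1 hp).1.two_le
          omega
        ext q
        simp only [mem_filter, Nat.mem_primeFactors, mem_primesUpTo]
        exact ⟨fun h => ⟨⟨h.1.1, h.2⟩, h.1.2.1⟩, fun h => ⟨⟨h.1.1, h.2, hp1⟩, h.1.2⟩⟩
      · refine (sum_le_sum (g := fun q => share q * recipLogSum m +
          |(((primesUpTo m).filter fun p => q ∣ p - 1).card : ℝ) - share q * recipLogSum m|)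
          fun q _ => ?_).trans ?_
        · rw [sum_boole]
          linarith [le_abs_self ((((primesUpTo m).filter fun p => q ∣ p - 1).card : ℝ) -
            share q * recipLogSum m)]
        · rw [sum_add_distrib, ← sum_mul, ← hσ]
          exact add_le_add le_rfl h1
    have hσle : σ ≤ (C₁ + 3) * (1 + |loglog Y|) := by
      have h2 := ShiftedPrimeOmega.abs_shareSum_sub_recipSum_le (a := -1) (by norm_num) Y
      rw [goodPrimes_neg_one, ← hσ] at h2
      simp only [Int.natAbs_neg, Int.natAbs_one, Nat.primeFactors_one, card_empty, Nat.cast_zero,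
        add_zero] at h2
      have h3 := (abs_le.1 (hC₁ Y (by omega))).2
      have h4 : Real.log (Real.log Y) = loglog Y := rfl
      have h5 := mul_nonneg hC₁0 hY0
      linarith [(abs_le.1 h2).2]
    have hX : recipLogSum m ≤ (Cπ + C') * u := by
      have h2 := hπ m hm
      rw [← hu] at h2
      linarith [(abs_le.1 h0).1]
    have hσ0 : 0 ≤ σ := hσ ▸ sum_nonneg fun q hq =>
      (ShiftedPrimeOmega.share_bounds (mem_primesUpTo.1 hq).1.two_le).1
    refine hsum.trans ?_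
    have h2 := (mul_le_mul_of_nonneg_left hX hσ0).trans
      (mul_le_mul_of_nonneg_right hσle (mul_nonneg (by linarith) hu0))
    have hb : (C₁ + 3) * (Cπ + C') + C' ≤ K := by
      rw [hK]
      nlinarith [mul_nonneg hC (add_nonneg (zero_le_four (α := ℝ)) (abs_nonneg (loglog m₀))),
        mul_nonneg hC₁0 hC'.le, mul_nonneg hC₁0 hCπ]
    have h3 := mul_le_mul_of_nonneg_right hb (mul_nonneg (show 0 ≤ 1 + |loglog Y| by linarith) hu0)
    have h4 : C' * u ≤ C' * ((1 + |loglog Y|) * u) :=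
      mul_le_mul_of_nonneg_left (le_mul_of_one_le_left hu0 (by linarith)) hC'.le
    linarith
  · refine (sum_le_sum (g := fun p => omegaPred p) fun p _ => ?_).trans ((hdev m hm).2.2.trans ?_)
    · exact Nat.cast_le.2 (card_filter_le _ _)
    rw [← hu, ← mul_assoc]
    refine mul_le_mul_of_nonneg_right ?_ hu0
    have hm1 : |loglog m| + 1 ≤ (4 + |loglog m₀|) * (1 + |loglog Y|) := by
      have hb : loglog m ≤ |loglog m₀| + 2 + |loglog Y| := by
        rcases not_and_or.1 hcase with h | h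
        · linarith [loglog_mono hm (not_le.1 h).le, le_abs_self (loglog m₀)]
        · have hY4 : m < Y ^ 4 := (ShiftedPrimeOmega.lt_sqrt_sqrt_succ_pow_four m).trans_le
            (Nat.pow_le_pow_left (by omega) 4)
          have hlY : 0 < Real.log Y := Real.log_pos (Nat.one_lt_cast.2 (by omega))
          have h1 : Real.log m ≤ 4 * Real.log Y := by
            rw [← Nat.cast_ofNat (n := 4), ← Real.log_pow]
            exact Real.log_le_log (Nat.cast_pos.2 (by omega)) (by exact_mod_cast hY4.le)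
          have h2 := Real.log_le_log (Real.log_pos (Nat.one_lt_cast.2 (by omega))) h1
          rw [Real.log_mul (by norm_num) hlY.ne'] at h2
          have h3 : Real.log 4 ≤ 2 := by
            rw [show (4 : ℝ) = 2 ^ 2 by norm_num, Real.log_pow]
            push_cast
            linarith [Real.log_two_lt_d9]
          simp only [loglog] at hLY ⊢
          linarith [abs_nonneg (Real.log (Real.log m₀))]
      have h1 : |loglog m| ≤ |loglog m₀| + 2 + |loglog Y| :=
        abs_le.2 ⟨by linarith [neg_one_le_loglog hm, abs_nonneg (loglog m₀)], hb⟩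
      nlinarith [abs_nonneg (loglog m₀)]
    refine (mul_le_mul_of_nonneg_left hm1 hC).trans ?_
    rw [← mul_assoc, hK]
    refine mul_le_mul_of_nonneg_right ?_ (by linarith)
    have := mul_nonneg (show 0 ≤ C₁ + 4 by linarith) (show 0 ≤ Cπ + 2 * C' by linarith)
    linarith

/-- `∑ 1 / p` over `p ≤ N` with `q ∣ p - 1`. -/
theorem recip_class_le {q : ℕ} (hq : 0 < q) (N : ℕ) :
    ∑ p ∈ (primesUpTo N).filter (fun p => q ∣ p - 1), (p : ℝ)⁻¹ ≤
      (1 + Real.log N) / q := by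
  have hh : (∑ k ∈ Icc 1 N, (k : ℝ)⁻¹) ≤ 1 + Real.log N := by
    have h := harmonic_le_one_add_log N
    rw [harmonic_eq_sum_Icc] at h
    push_cast at h
    exact h
  refine le_trans ?_ (div_le_div_of_nonneg_right hh (Nat.cast_nonneg q))
  rw [sum_div]
  have hmem : ∀ p ∈ (primesUpTo N).filter (fun p => q ∣ p - 1),
      2 ≤ p ∧ p ≤ N ∧ (p - 1) / q * q = p - 1 := fun p hp => by
    rw [mem_filter, mem_primesUpTo] at hp
    exact ⟨hp.1.1.two_le, hp.1.2, Nat.div_mul_cancel hp.2⟩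
  refine le_trans (sum_le_sum (g := fun p => (((p - 1) / q : ℕ) : ℝ)⁻¹ / q) fun p hp => ?_) ?_
  · obtain ⟨h2, -, e⟩ := hmem p hp
    rw [div_eq_mul_inv, ← mul_inv]
    refine inv_anti₀ ?_ ?_
    · rw [← Nat.cast_mul, e, Nat.cast_pos]
      omega
    · rw [← Nat.cast_mul, e]
      exact Nat.cast_le.2 (Nat.sub_le p 1)
  · refine le_trans (le_of_eq (sum_image (f := fun k : ℕ => (k : ℝ)⁻¹ / (q : ℝ))
      (g := fun p => (p - 1) / q) fun p hp p' hp' h => ?_).symm)
      (sum_le_sum_of_subset_of_nonneg (fun k hk => ?_) fun _ _ _ => by positivity)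
    · obtain ⟨h2, -, e⟩ := hmem p hp
      obtain ⟨h2', -, e'⟩ := hmem p' hp'
      simp only at h
      rw [h, e'] at e
      omega
    · obtain ⟨p, hp, rfl⟩ := mem_image.1 hk
      obtain ⟨h2, hN, e⟩ := hmem p hp
      rw [mem_Icc]
      constructor
      · rcases Nat.eq_zero_or_pos ((p - 1) / q) with h0 | h0
        · rw [h0, zero_mul] at e
          omega
        · exact h0
      · exact (Nat.div_le_self _ _).trans (by omega)

/-- The sum of the `ω (p - 1)` against their union. -/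
theorem sum_card_le_card_biUnion_add {F Q : Finset ℕ} {G : ℕ → Finset ℕ}
    (hQ : ∀ p ∈ F, G p ⊆ Q) (Y : ℕ) :
    (∑ p ∈ F, ((G p).card : ℝ)) - (F.biUnion G).card ≤
      (∑ p ∈ F, (((G p).filter fun q => q ≤ Y).card : ℝ)) +
        ∑ q ∈ Q.filter (fun q => Y < q), (((F.filter fun p => q ∈ G p).card : ℝ) ^ 2 -
          (F.filter fun p => q ∈ G p).card) := by
  obtain ⟨U, hU⟩ : ∃ U, U = F.biUnion G := ⟨_, rfl⟩
  obtain ⟨M, hM⟩ : ∃ M : ℕ → ℝ, M = fun q => ((F.filter fun p => q ∈ G p).card : ℝ) := ⟨_, rfl⟩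
  rw [← hU]
  have hcnt : ∀ pr : ℕ → Prop, ∀ [DecidablePred pr],
      ∑ p ∈ F, (((G p).filter pr).card : ℝ) = ∑ q ∈ U.filter pr, M q := fun pr _ => by
    simp only [hM, card_filter, Nat.cast_sum, Nat.cast_ite, Nat.cast_one, Nat.cast_zero]
    rw [sum_comm (s := U.filter pr)]
    refine sum_congr rfl fun p hp => ?_
    rw [← sum_filter, ← sum_filter]
    refine sum_congr ?_ fun _ _ => rfl
    ext q
    simp only [mem_filter]
    exact ⟨fun h => ⟨⟨hU ▸ mem_biUnion.2 ⟨p, hp, h.1⟩, h.2⟩, h.1⟩, fun h => ⟨h.2, h.1.2⟩⟩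
  have hM1 : ∀ q ∈ U, 1 ≤ M q := fun q hq => by
    rw [hU, mem_biUnion] at hq
    obtain ⟨p, hp, hqp⟩ := hq
    rw [hM]
    exact Nat.one_le_cast.2 (card_pos.2 ⟨p, mem_filter.2 ⟨hp, hqp⟩⟩)
  have hsq : ∀ q, 0 ≤ M q ^ 2 - M q := fun q => by
    rw [hM]
    simp only
    rw [sub_nonneg]
    exact_mod_cast Nat.le_self_pow two_ne_zero _
  have hall : ∑ p ∈ F, ((G p).card : ℝ) = ∑ q ∈ U, M q := by simpa using hcnt fun _ => True
  have hbig : ∑ q ∈ U.filter (fun q => Y < q), (M q ^ 2 - M q) ≤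
      ∑ q ∈ Q.filter (fun q => Y < q), (M q ^ 2 - M q) := by
    refine sum_le_sum_of_subset_of_nonneg (filter_subset_filter _ ?_) fun q _ _ => hsq q
    exact hU ▸ biUnion_subset.2 hQ
  rw [hM] at hbig
  simp only at hbig
  rw [hall, ← nsmul_one U.card, ← sum_const, ← sum_sub_distrib, hcnt fun q => q ≤ Y,
    ← sum_filter_add_sum_filter_not U (fun q => q ≤ Y) fun q => M q - 1]
  refine add_le_add (sum_le_sum fun q _ => by linarith) (le_trans ?_ hbig)
  rw [filter_congr (p := fun q => ¬ q ≤ Y) (q := fun q => Y < q) fun q _ => not_le]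
  refine sum_le_sum fun q hq => ?_
  have := hM1 q (mem_filter.1 hq).1
  rw [hM] at this ⊢
  nlinarith

/-- The average of the pairs. -/
theorem sum_sq_sub_le (A : Finset ℕ) (hA : ∀ p ∈ A, p.Prime) (N : ℕ) :
    ∑ n ∈ Icc 1 N, (((A.filter (· ∣ n)).card : ℝ) ^ 2 - (A.filter (· ∣ n)).card) ≤
      N * (∑ p ∈ A, (p : ℝ)⁻¹) ^ 2 := by
  have e : ∀ n, ((A.filter (· ∣ n)).card : ℝ) ^ 2 - (A.filter (· ∣ n)).card =
      ∑ r ∈ A.offDiag, if r.1 * r.2 ∣ n then (1 : ℝ) else 0 := fun n => by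
    rw [sum_boole, show A.offDiag.filter (fun r => r.1 * r.2 ∣ n) =
      (A.filter (· ∣ n)).offDiag by
        ext r
        simp only [mem_filter, mem_offDiag]
        refine ⟨fun ⟨⟨h1, h2, h3⟩, h⟩ => ⟨⟨h1, dvd_of_mul_right_dvd h⟩,
          ⟨h2, dvd_of_mul_left_dvd h⟩, h3⟩, fun ⟨⟨h1, d1⟩, ⟨h2, d2⟩, h3⟩ =>
          ⟨⟨h1, h2, h3⟩, Nat.Coprime.mul_dvd_of_dvd_of_dvd
            ((Nat.coprime_primes (hA _ h1) (hA _ h2)).2 h3) d1 d2⟩⟩,
      offDiag_card, Nat.cast_sub (Nat.le_mul_self _), Nat.cast_mul]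
    ring
  have key : ∑ r ∈ A.offDiag, (N : ℝ) * ((r.1 : ℝ)⁻¹ * (r.2 : ℝ)⁻¹) ≤
      N * (∑ p ∈ A, (p : ℝ)⁻¹) ^ 2 := by
    rw [sq, sum_mul_sum, ← sum_product', mul_sum]
    refine sum_le_sum_of_subset_of_nonneg (fun r hr => ?_) fun _ _ _ => by positivity
    rw [mem_offDiag] at hr
    exact mem_product.2 ⟨hr.1, hr.2.1⟩
  rw [sum_congr rfl fun n _ => e n, sum_comm]
  refine le_trans (sum_le_sum fun r _ => ?_) key
  rw [sum_boole, show Icc 1 N = Ioc 0 N from rfl, Nat.Ioc_filter_dvd_card_eq_div]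
  refine Nat.cast_div_le.trans (le_of_eq ?_)
  rw [Nat.cast_mul, div_eq_mul_inv, mul_inv]

/-- **`ω (φ n)` and `Ω (φ n)` against `∑_{p ∣ n} ω (p - 1)`.** -/
theorem exists_totient_dev : ∃ C : ℝ, 0 ≤ C ∧ ∀ᶠ N : ℕ in atTop,
    ∑ n ∈ Icc 1 N, |(n.totient.primeFactors.card : ℝ) - factorOmega n| ≤
        C * N * (loglog N * (Real.log (loglog N) + 1)) ∧
    ∑ n ∈ Icc 1 N, |(Ω n.totient : ℝ) - factorOmega n| ≤
        C * N * (loglog N * (Real.log (loglog N) + 1)) := by
  obtain ⟨Cs, hCs, hsmall⟩ := exists_sum_small_le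
  obtain ⟨Cp, hCp, hpow⟩ := exists_sum_powers_le
  obtain ⟨C₁, hC₁⟩ := FA.ErdosKac.exists_abs_recipSum_sub_le
  have hC₁0 : 0 ≤ C₁ := (abs_nonneg _).trans (hC₁ 2 le_rfl)
  refine ⟨C₁ + 20 * Cs + 10 * Cp + 20, by positivity, ?_⟩
  filter_upwards [eventually_ge_atTop 16, tendsto_loglog.eventually_ge_atTop 1,
    BombieriVinogradov.eventually_log_ge 3] with N hN hx hL3
  obtain ⟨L, hL⟩ : ∃ L, L = Real.log N := ⟨_, rfl⟩
  obtain ⟨x, hxdef⟩ : ∃ x, x = loglog N := ⟨_, rfl⟩
  obtain ⟨l, hldef⟩ : ∃ l, l = Real.log x := ⟨_, rfl⟩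
  rw [← hL] at hL3
  rw [← hxdef] at hx ⊢
  rw [← hldef]
  have hl0 : 0 ≤ l := hldef ▸ Real.log_nonneg hx
  have hexp : Real.exp x = L := by
    rw [hxdef, loglog, ← hL, Real.exp_log (by linarith)]
  obtain ⟨Y, hY⟩ : ∃ Y, Y = ⌈L ^ 2⌉₊ := ⟨_, rfl⟩
  have hL9 : 9 ≤ L ^ 2 := by nlinarith
  have hY9 : L ^ 2 ≤ (Y : ℝ) := hY ▸ Nat.le_ceil _
  have hY3 : 3 ≤ Y := by
    have : (3 : ℝ) ≤ Y := by linarith
    exact_mod_cast this
  have hlY : |loglog Y| ≤ l + 2 := by
    have h1 : Real.log Y ≤ 4 * x := by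
      have h2 : (Y : ℝ) ≤ 2 * L ^ 2 := by
        rw [hY]
        linarith [(Nat.ceil_lt_add_one (show 0 ≤ L ^ 2 by positivity))]
      refine (Real.log_le_log (Nat.cast_pos.2 (by omega)) h2).trans ?_
      rw [Real.log_mul two_ne_zero (by positivity), Real.log_pow, ← hexp, Real.log_exp]
      push_cast
      linarith [Real.log_two_lt_d9]
    have h3 := Real.log_le_log (Real.log_pos (Nat.one_lt_cast.2 (by omega))) h1
    rw [Real.log_mul (by norm_num) (by linarith), ← hldef] at h3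
    have h4 : Real.log 4 ≤ 2 := by
      rw [show (4 : ℝ) = 2 ^ 2 by norm_num, Real.log_pow]
      push_cast
      linarith [Real.log_two_lt_d9]
    have h5 := neg_one_le_loglog (show 2 ≤ Y by omega)
    rw [loglog] at h5 ⊢
    exact abs_le.2 ⟨by linarith, by linarith⟩
  obtain ⟨Z, hZ⟩ : ∃ Z, Z = x * (l + 1) := ⟨_, rfl⟩
  rw [← hZ]
  have hxZ : x ≤ Z := hZ ▸ le_mul_of_one_le_right (by linarith) (by linarith)
  have hNnn : (0 : ℝ) ≤ N := Nat.cast_nonneg N
  -- the number of prime divisors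
  have hω : ∑ n ∈ Icc 1 N, (n.primeFactors.card : ℝ) ≤ N * ((C₁ + 1) * Z) := by
    refine le_trans (le_of_eq (sum_congr rfl fun n _ => (by simp)))
      ((sum_primeFactors_le (h := fun _ => 1) fun _ => zero_le_one).trans
        (mul_le_mul_of_nonneg_left ?_ hNnn))
    have h := (abs_le.1 (hC₁ N (by omega))).2
    have hh : Real.log (Real.log N) = x := hxdef ▸ rfl
    have h2 : C₁ ≤ C₁ * Z := le_mul_of_one_le_right hC₁0 (hx.trans hxZ)
    simp only [one_div]
    rw [← recipSum]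
    linarith
  -- the small primes
  have hA : ∑ n ∈ Icc 1 N, ∑ p ∈ n.primeFactors,
      ((((p - 1).primeFactors.filter fun q => q ≤ Y).card : ℕ) : ℝ) ≤ N * (15 * Cs * Z) := by
    refine (sum_primeFactors_le fun p => Nat.cast_nonneg _).trans
      (mul_le_mul_of_nonneg_left ?_ hNnn)
    refine (le_abs_self _).trans ((abs_sum_div_le (M := Cs * (1 + |loglog Y|)) (by omega)
      fun m hm _ => ?_).trans ?_)
    · rw [abs_of_nonneg (sum_nonneg fun p _ => Nat.cast_nonneg _)]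
      exact hsmall m Y hm hY3
    rw [← hxdef, hZ, mul_assoc,
      show 15 * Cs * (x * (l + 1)) = Cs * ((3 * (l + 1)) * (5 * x)) by ring]
    exact mul_le_mul_of_nonneg_left (mul_le_mul (by linarith) (by linarith) (by linarith)
      (by linarith)) hCs
  -- the large primes
  have hB : ∑ n ∈ Icc 1 N, ∑ q ∈ (primesUpTo N).filter (fun q => Y < q),
      ((((primesUpTo N).filter fun p => q ∣ p - 1).filter (· ∣ n)).card ^ 2 -
        (((primesUpTo N).filter fun p => q ∣ p - 1).filter (· ∣ n)).card : ℝ) ≤ N * 8 := by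
    rw [sum_comm]
    refine (sum_le_sum fun q hq => sum_sq_sub_le _
      (fun p hp => (mem_primesUpTo.1 (mem_filter.1 hp).1).1) N).trans ?_
    rw [← mul_sum]
    refine mul_le_mul_of_nonneg_left ?_ hNnn
    refine (sum_le_sum (g := fun q : ℕ => (1 + L) ^ 2 * ((q : ℝ) ^ 2)⁻¹) fun q hq => ?_).trans ?_
    · have hq0 : 0 < q := lt_of_le_of_lt (Nat.zero_le Y) (mem_filter.1 hq).2
      refine (pow_le_pow_left₀ (sum_nonneg fun _ _ => by positivity)
        (hL ▸ recip_class_le hq0 N) 2).trans (le_of_eq ?_)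
      rw [div_pow, div_eq_mul_inv]
    · rw [← mul_sum]
      refine (mul_le_mul (pow_le_pow_left₀ (by linarith) (show 1 + L ≤ 2 * L by linarith) 2)
        ((sum_le_sum_of_subset_of_nonneg (t := Ioo Y (N + 1)) (fun q hq => ?_)
          fun _ _ _ => by positivity).trans (sum_Ioo_inv_sq_le Y (N + 1)))
        (sum_nonneg fun _ _ => by positivity) (by positivity)).trans ?_
      · rw [mem_filter, mem_primesUpTo] at hq
        exact mem_Ioo.2 ⟨hq.2, Nat.lt_succ_of_le hq.1.2⟩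
      · rw [mul_div_assoc', div_le_iff₀ (by positivity)]
        linarith
  -- the prime powers
  have hP : ∑ n ∈ Icc 1 N, ∑ p ∈ n.primeFactors, ((Ω (p - 1) : ℝ) - omegaPred p) ≤
      N * (5 * Cp * Z) := by
    refine (sum_primeFactors_le fun p => sub_nonneg.2 (card_le_cardFactors _)).trans
      (mul_le_mul_of_nonneg_left ?_ hNnn)
    refine (le_abs_self _).trans ((abs_sum_div_le (M := Cp) (by omega) fun m hm _ => ?_).trans ?_)
    · rw [abs_of_nonneg (sum_nonneg fun p _ => sub_nonneg.2 (card_le_cardFactors _))]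
      exact hpow m hm
    · rw [← hxdef, mul_comm (5 : ℝ), mul_assoc]
      exact mul_le_mul_of_nonneg_left (by linarith) hCp
  have hNZ : (N : ℝ) ≤ N * Z := le_mul_of_one_le_right hNnn (hx.trans hxZ)
  have hrest : 0 ≤ C₁ * ((N : ℝ) * Z) ∧ 0 ≤ Cs * ((N : ℝ) * Z) ∧ 0 ≤ Cp * ((N : ℝ) * Z) := by
    have := hx.trans hxZ
    refine ⟨?_, ?_, ?_⟩ <;> positivity
  obtain ⟨hr1, hr2, hr3⟩ := hrest
  refine ⟨?_, ?_⟩
  · refine (sum_le_sum (g := fun n => (n.primeFactors.card : ℝ) +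
      ((∑ p ∈ n.primeFactors, ((((p - 1).primeFactors.filter fun q => q ≤ Y).card : ℕ) : ℝ)) +
        ∑ q ∈ (primesUpTo N).filter (fun q => Y < q),
          ((((primesUpTo N).filter fun p => q ∣ p - 1).filter (· ∣ n)).card ^ 2 -
            (((primesUpTo N).filter fun p => q ∣ p - 1).filter (· ∣ n)).card : ℝ)))
      fun n hn => ?_).trans ?_
    · obtain ⟨hn1, hn2⟩ := mem_Icc.1 hn
      have hsub : ∀ p ∈ n.primeFactors, (p - 1).primeFactors ⊆ primesUpTo N := fun p hp q hq => by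
        obtain ⟨hqp, hqd, hq0⟩ := Nat.mem_primeFactors.1 hq
        have h1 := Nat.le_of_dvd hn1 (Nat.dvd_of_mem_primeFactors hp)
        have h2 := Nat.le_of_dvd (Nat.pos_of_ne_zero hq0) hqd
        exact mem_primesUpTo.2 ⟨hqp, by omega⟩
      have h := sum_card_le_card_biUnion_add hsub Y
      have e : ∀ q ∈ (primesUpTo N).filter (fun q => Y < q),
          (n.primeFactors.filter fun p => q ∈ (p - 1).primeFactors) =
            ((primesUpTo N).filter fun p => q ∣ p - 1).filter (· ∣ n) := fun q hq => by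
        rw [primeFactors_eq_filter hn1 hn2]
        ext p
        simp only [mem_filter, Nat.mem_primeFactors]
        refine ⟨fun h => ⟨⟨h.1.1, h.2.2.1⟩, h.1.2⟩, fun h => ⟨⟨h.1.1, h.2⟩,
          (mem_primesUpTo.1 (mem_filter.1 hq).1).1, h.1.2, ?_⟩⟩
        have := (mem_primesUpTo.1 h.1.1).1.two_le
        omega
      rw [sum_congr (s₁ := (primesUpTo N).filter fun q => Y < q) rfl fun q hq => by
        rw [e q hq]] at h
      rw [show (∑ p ∈ n.primeFactors, ((p - 1).primeFactors.card : ℝ)) = factorOmega n from rfl,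
        show n.primeFactors.biUnion (fun p => (p - 1).primeFactors) = predFactors n from rfl] at h
      have hlow : ((predFactors n).card : ℝ) ≤ n.totient.primeFactors.card :=
        Nat.cast_le.2 (card_le_card (predFactors_subset (by omega)))
      have hup : (n.totient.primeFactors.card : ℝ) ≤
          (predFactors n).card + n.primeFactors.card := by
        exact_mod_cast (card_le_card (primeFactors_totient_subset (by omega))).trans
          (card_union_le _ _)
      have hle : ((predFactors n).card : ℝ) ≤ factorOmega n := by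
        rw [factorOmega]
        simp only [omegaPred]
        exact_mod_cast card_biUnion_le
      have hnn := Nat.cast_nonneg (α := ℝ) n.primeFactors.card
      rw [abs_le]
      constructor <;> linarith
    · rw [sum_add_distrib, sum_add_distrib]
      linarith
  · refine (sum_le_sum (g := fun n => ((Ω n : ℝ) - n.primeFactors.card) +
      ∑ p ∈ n.primeFactors, ((Ω (p - 1) : ℝ) - omegaPred p)) fun n hn => ?_).trans ?_
    · rw [cardFactors_totient (by have := (mem_Icc.1 hn).1; omega), factorOmega, add_sub_assoc,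
        ← sum_sub_distrib, abs_of_nonneg]
      exact add_nonneg (sub_nonneg.2 (card_le_cardFactors n))
        (sum_nonneg fun p _ => sub_nonneg.2 (card_le_cardFactors _))
    · rw [sum_add_distrib]
      have := sum_cardFactors_sub_le N
      linarith

end FA.OmegaPhi

end
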